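import Mathlib
import Fermat.Prelude.Def_CuspForm_HeckeLocal
import Fermat.Prelude.Def_CuspForm_HeckeEvalForms
import Fermat.Prelude.Def_HeckeGalois_EichlerShimura
import Fermat.Prelude.Def_ModularCurve_ModularUnit
import Fermat.Prelude.Def_ModularCurve_PeriodHomPair

set_option autoImplicit false

/-!
# S16, lower bound package: definitions

* `s16lbAb N` : the abelianisation of `Γ₀(N)`, written additively.  Every additive character
  `Additive Γ₀(N) →+ A` descends to it (`s16lbDesc`), and "cohomological Hecke operators" are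
  simply endomorphisms of `s16lbAb N` (acting on characters by precomposition, naturally in `A`).
* `s16lbChi0 p`, `s16lbChi p` : the Eisenstein character `Γ₀(p) → ℤ/n`,
  `γ ↦ log (d mod p) mod n`, `n = eisensteinNumerator p`.
-/

namespace Fermat.Agent.S16LB

open CongruenceSubgroup ModularCurve ModularCurve.Period
open scoped MatrixGroups

/-- The abelianisation of `Γ₀(N)`, additively. -/
abbrev s16lbAb (N : ℕ) : Type := Additive (Abelianization (Gamma0 N))

/-- The class map `Γ₀(N) → Γ₀(N)^ab`. -/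
def s16lbCls (N : ℕ) : Additive (Gamma0 N) →+ s16lbAb N :=
  MonoidHom.toAdditive Abelianization.of

/-- Descent of an additive character to the abelianisation. -/
def s16lbDesc {N : ℕ} {A : Type*} [AddCommGroup A] (φ : Additive (Gamma0 N) →+ A) :
    s16lbAb N →+ A :=
  MonoidHom.toAdditiveLeft (Abelianization.lift (AddMonoidHom.toMultiplicativeRight φ))

@[simp] theorem s16lbDesc_cls {N : ℕ} {A : Type*} [AddCommGroup A]
    (φ : Additive (Gamma0 N) →+ A) (γ : Additive (Gamma0 N)) :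
    s16lbDesc φ (s16lbCls N γ) = φ γ := by
  simp [s16lbDesc, s16lbCls]

theorem s16lbDesc_comp_cls {N : ℕ} {A : Type*} [AddCommGroup A]
    (φ : Additive (Gamma0 N) →+ A) : (s16lbDesc φ).comp (s16lbCls N) = φ :=
  AddMonoidHom.ext fun γ => s16lbDesc_cls φ γ

theorem s16lbCls_surjective (N : ℕ) : Function.Surjective (s16lbCls N) := by
  intro x
  obtain ⟨γ, hγ⟩ := QuotientGroup.mk_surjective (s := commutator (Gamma0 N)) (Additive.toMul x)
  exact ⟨Additive.ofMul γ, congrArg Additive.ofMul hγ⟩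

theorem s16lbAb_ext {N : ℕ} {A : Type*} [AddCommGroup A] {f g : s16lbAb N →+ A}
    (h : ∀ γ : Additive (Gamma0 N), f (s16lbCls N γ) = g (s16lbCls N γ)) : f = g := by
  refine AddMonoidHom.ext fun x => ?_
  obtain ⟨γ, rfl⟩ := s16lbCls_surjective N x
  exact h γ

theorem s16lbDesc_comp_eq {N : ℕ} {A : Type*} [AddCommGroup A]
    (f : s16lbAb N →+ A) : s16lbDesc (f.comp (s16lbCls N)) = f :=
  s16lbAb_ext fun γ => by simp

theorem s16lbDesc_add {N : ℕ} {A : Type*} [AddCommGroup A]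
    (φ ψ : Additive (Gamma0 N) →+ A) : s16lbDesc (φ + ψ) = s16lbDesc φ + s16lbDesc ψ :=
  s16lbAb_ext fun γ => by simp

theorem s16lbDesc_zero {N : ℕ} {A : Type*} [AddCommGroup A] :
    s16lbDesc (0 : Additive (Gamma0 N) →+ A) = 0 :=
  s16lbAb_ext fun γ => by simp

theorem s16lbDesc_zsmul {N : ℕ} {A : Type*} [AddCommGroup A] (c : ℤ)
    (φ : Additive (Gamma0 N) →+ A) : s16lbDesc (c • φ) = c • s16lbDesc φ :=
  s16lbAb_ext fun γ => by simp

/-- Post-composition commutes with descent. -/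
theorem s16lbDesc_postcomp {N : ℕ} {A B : Type*} [AddCommGroup A] [AddCommGroup B]
    (u : A →+ B) (φ : Additive (Gamma0 N) →+ A) :
    s16lbDesc (u.comp φ) = u.comp (s16lbDesc φ) :=
  s16lbAb_ext fun γ => by simp

/-- The lower right entry, as a character `Γ₀(N) →* (ZMod N)ˣ`. -/
def s16lbDUnit (N : ℕ) : Gamma0 N →* (ZMod N)ˣ := (Gamma0Map N).toHomUnits

@[simp] theorem s16lbDUnit_coe (N : ℕ) (γ : Gamma0 N) :
    ((s16lbDUnit N γ : (ZMod N)ˣ) : ZMod N) = (((γ : SL(2, ℤ)) 1 1 : ℤ) : ZMod N) := rfl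

/-- The additive character of `Γ₀(N)` attached to a character of `(ℤ/N)ˣ`:
`γ ↦ χ₀ (d mod N)`. -/
def s16lbChiOf {N : ℕ} {A : Type*} [AddCommGroup A] (χ₀ : (ZMod N)ˣ →* Multiplicative A) :
    Additive (Gamma0 N) →+ A :=
  MonoidHom.toAdditiveLeft (χ₀.comp (s16lbDUnit N))

@[simp] theorem s16lbChiOf_apply {N : ℕ} {A : Type*} [AddCommGroup A]
    (χ₀ : (ZMod N)ˣ →* Multiplicative A) (γ : Gamma0 N) :
    s16lbChiOf χ₀ (Additive.ofMul γ) = Multiplicative.toAdd (χ₀ (s16lbDUnit N γ)) := rfl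

end Fermat.Agent.S16LB
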