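import Fermat.Agent.S16.LB.Transfer
import Fermat.Agent.S16.LB.Defs
import Fermat.Prelude.Def_ModularForm_HeckeOperatorForms

/-!
# S16 lower bound, piece 8: the Hecke correspondences `T_ℓ`, `U_ℓ` on `Γ₀(N)` as
`S16lbHeckeData` inside `GL₂(ℝ)`.
-/

set_option autoImplicit false

namespace Fermat.Agent.S16LB

open P2MW.S_ModularForm_heckeT_slash_eq_self_of_mem_Gamma0.ModularForm.HeckeSlashInvariance
open ModularForm CongruenceSubgroup Matrix.SpecialLinearGroup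
open scoped MatrixGroups

/-- The embedding `Γ₀(N) → GL₂(ℝ)`. -/
noncomputable def s16lbIota (N : ℕ) : Gamma0 N →* GL (Fin 2) ℝ :=
  (mapGL ℝ).comp (Gamma0 N).subtype

theorem s16lbIota_apply (N : ℕ) (γ : Gamma0 N) : s16lbIota N γ = mapGL ℝ (γ : SL(2, ℤ)) := rfl

theorem s16lbIota_injective (N : ℕ) : Function.Injective (s16lbIota N) :=
  fun _ _ h => Subtype.ext (mapGL_injective h)

theorem s16lb_mem_Gamma0_of_dvd {N : ℕ} {g : SL(2, ℤ)} (h : (N : ℤ) ∣ g 1 0) : g ∈ Gamma0 N :=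
  Gamma0_mem.mpr ((ZMod.intCast_zmod_eq_zero_iff_dvd _ _).mpr h)

theorem s16lb_dvd_of_mem_Gamma0 {N : ℕ} {g : SL(2, ℤ)} (h : g ∈ Gamma0 N) : (N : ℤ) ∣ g 1 0 :=
  (ZMod.intCast_zmod_eq_zero_iff_dvd _ _).mp (Gamma0_mem.mp h)

/-- entries of a product `heckeMatrix * mapGL g` etc. are read off in `ℝ`. -/
theorem s16lb_val_mapGL (g : SL(2, ℤ)) :
    ((mapGL ℝ g : GL (Fin 2) ℝ) : Matrix (Fin 2) (Fin 2) ℝ)
      = !![((g 0 0 : ℤ) : ℝ), ((g 0 1 : ℤ) : ℝ); ((g 1 0 : ℤ) : ℝ), ((g 1 1 : ℤ) : ℝ)] := by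
  ext i j
  fin_cases i <;> fin_cases j <;> simp

section T

variable {ℓ : ℕ} [Fact ℓ.Prime]

theorem s16lb_heckeRep_unique (x y : OnePoint (ZMod ℓ)) (g : SL(2, ℤ))
    (h : heckeRep ℓ x = mapGL ℝ g * heckeRep ℓ y) : x = y := by
  have hℓ : ℓ ≠ 0 := (Fact.out : ℓ.Prime).ne_zero
  have hℓ2 : (2 : ℤ) ≤ ℓ := by exact_mod_cast (Fact.out : ℓ.Prime).two_le
  have hv := congrArg (fun M : GL (Fin 2) ℝ => (M : Matrix (Fin 2) (Fin 2) ℝ)) h
  simp only [Units.val_mul, s16lb_val_mapGL] at hv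
  induction x using OnePoint.rec with
  | infty =>
    induction y using OnePoint.rec with
    | infty => rfl
    | coe j =>
      exfalso
      rw [heckeRep_infty, heckeRep_coe, val_heckeDiagMatrix hℓ, val_heckeMatrix hℓ] at hv
      have h10 := congrFun (congrFun hv 1) 0
      have h11 := congrFun (congrFun hv 1) 1
      simp [-ZMod.natCast_val, Matrix.mul_apply, Fin.sum_univ_two] at h10 h11
      rw [← h10, zero_mul, zero_add] at h11
      have h11' : (1 : ℤ) = g 1 1 * ℓ := by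
        have : ((1 : ℤ) : ℝ) = ((g 1 1 * ℓ : ℤ) : ℝ) := by push_cast; linarith
        exact_mod_cast this
      have := Int.eq_one_or_neg_one_of_mul_eq_one' h11'.symm
      omega
  | coe i =>
    induction y using OnePoint.rec with
    | infty =>
      exfalso
      rw [heckeRep_infty, heckeRep_coe, val_heckeDiagMatrix hℓ, val_heckeMatrix hℓ] at hv
      have h00 := congrFun (congrFun hv 0) 0
      simp [-ZMod.natCast_val, Matrix.mul_apply, Fin.sum_univ_two] at h00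
      have h00' : (1 : ℤ) = g 0 0 * ℓ := by
        have : ((1 : ℤ) : ℝ) = ((g 0 0 * ℓ : ℤ) : ℝ) := by push_cast; linarith
        exact_mod_cast this
      have := Int.eq_one_or_neg_one_of_mul_eq_one' h00'.symm
      omega
    | coe j =>
      rw [heckeRep_coe, heckeRep_coe, val_heckeMatrix hℓ, val_heckeMatrix hℓ] at hv
      have h00 := congrFun (congrFun hv 0) 0
      have h01 := congrFun (congrFun hv 0) 1
      simp [-ZMod.natCast_val, Matrix.mul_apply, Fin.sum_univ_two] at h00 h01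
      have h01' : (i.val : ℤ) = j.val + g 0 1 * ℓ := by
        have : (((i.val : ℤ)) : ℝ) = ((j.val + g 0 1 * ℓ : ℤ) : ℝ) := by
          push_cast; rw [h01, ← h00]; ring
        exact_mod_cast this
      have := congrArg (Int.cast : ℤ → ZMod ℓ) h01'
      push_cast at this
      rw [ZMod.natCast_zmod_val, ZMod.natCast_zmod_val, ZMod.natCast_self, mul_zero,
        add_zero] at this
      rw [this]

/-- the integer entries of the representatives: `heckeRep ℓ x = [[A, B], [0, D]]`. -/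
def s16lbRepA (ℓ : ℕ) (x : OnePoint (ZMod ℓ)) : ℕ := x.elim ℓ (fun _ => 1)
/-- upper right entry -/
def s16lbRepB (ℓ : ℕ) (x : OnePoint (ZMod ℓ)) : ℕ := x.elim 0 (fun j => j.val)
/-- lower right entry -/
def s16lbRepD (ℓ : ℕ) (x : OnePoint (ZMod ℓ)) : ℕ := x.elim 1 (fun _ => ℓ)

theorem s16lb_val_heckeRep (x : OnePoint (ZMod ℓ)) :
    ((heckeRep ℓ x : GL (Fin 2) ℝ) : Matrix (Fin 2) (Fin 2) ℝ)
      = !![(s16lbRepA ℓ x : ℝ), (s16lbRepB ℓ x : ℝ); 0, (s16lbRepD ℓ x : ℝ)] := by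
  have hℓ : ℓ ≠ 0 := (Fact.out : ℓ.Prime).ne_zero
  induction x using OnePoint.rec with
  | infty =>
    rw [heckeRep_infty, val_heckeDiagMatrix hℓ]
    simp [s16lbRepA, s16lbRepB, s16lbRepD]
  | coe j =>
    rw [heckeRep_coe, val_heckeMatrix hℓ]
    simp [-ZMod.natCast_val, s16lbRepA, s16lbRepB, s16lbRepD]

/-- integer entry relations read off from `α x * g = g' * α y`. -/
theorem s16lb_heckeRep_entries {x y : OnePoint (ZMod ℓ)} {g g' : SL(2, ℤ)}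
    (h : heckeRep ℓ x * mapGL ℝ g = mapGL ℝ g' * heckeRep ℓ y) :
    (s16lbRepD ℓ x : ℤ) * g 1 1 = g' 1 0 * s16lbRepB ℓ y + g' 1 1 * s16lbRepD ℓ y ∧
    (s16lbRepA ℓ x : ℤ) * g 0 0 + s16lbRepB ℓ x * g 1 0 = g' 0 0 * s16lbRepA ℓ y ∧
    (s16lbRepD ℓ x : ℤ) * g 1 0 = g' 1 0 * s16lbRepA ℓ y := by
  have hv := congrArg (fun M : GL (Fin 2) ℝ => (M : Matrix (Fin 2) (Fin 2) ℝ)) h
  simp only [Units.val_mul, s16lb_val_mapGL, s16lb_val_heckeRep] at hv
  have h11 := congrFun (congrFun hv 1) 1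
  have h00 := congrFun (congrFun hv 0) 0
  have h10 := congrFun (congrFun hv 1) 0
  simp [Matrix.mul_apply, Fin.sum_univ_two] at h11 h00 h10
  refine ⟨?_, ?_, ?_⟩
  · have : (((s16lbRepD ℓ x : ℤ) * g 1 1 : ℤ) : ℝ)
        = ((g' 1 0 * s16lbRepB ℓ y + g' 1 1 * s16lbRepD ℓ y : ℤ) : ℝ) := by
      push_cast; linarith
    exact_mod_cast this
  · have : (((s16lbRepA ℓ x : ℤ) * g 0 0 + s16lbRepB ℓ x * g 1 0 : ℤ) : ℝ)
        = ((g' 0 0 * s16lbRepA ℓ y : ℤ) : ℝ) := by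
      push_cast; linarith
    exact_mod_cast this
  · have : (((s16lbRepD ℓ x : ℤ) * g 1 0 : ℤ) : ℝ) = ((g' 1 0 * s16lbRepA ℓ y : ℤ) : ℝ) := by
      push_cast; linarith
    exact_mod_cast this

end T

section Data

variable (N : ℕ) (ℓ : ℕ) [Fact ℓ.Prime]

/-- `T_ℓ` on `Γ₀(N)`, `ℓ ∤ N`. -/
noncomputable def s16lbDataT (hℓN : ¬ ℓ ∣ N) :
    S16lbHeckeData (GL (Fin 2) ℝ) (Gamma0 N) (OnePoint (ZMod ℓ)) where
  ι := s16lbIota N
  hι := s16lbIota_injective N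
  α := heckeRep ℓ
  hex γ i := by
    obtain ⟨g', hg', h⟩ := heckeRep_mul hℓN (γ : SL(2, ℤ)) (s16lb_dvd_of_mem_Gamma0 γ.2) i
    exact ⟨redMatrix ℓ γ • i, ⟨g', s16lb_mem_Gamma0_of_dvd hg'⟩, h⟩
  hun i j γ' h := s16lb_heckeRep_unique i j γ' h

/-- `U_ℓ` on `Γ₀(N)`, `ℓ ∣ N`. -/
noncomputable def s16lbDataU (hℓN : ℓ ∣ N) :
    S16lbHeckeData (GL (Fin 2) ℝ) (Gamma0 N) (ZMod ℓ) where
  ι := s16lbIota N
  hι := s16lbIota_injective N
  α j := heckeRep ℓ (j : OnePoint (ZMod ℓ))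
  hex γ i := by
    have : NeZero ℓ := ⟨(Fact.out : ℓ.Prime).ne_zero⟩
    have hN := s16lb_dvd_of_mem_Gamma0 γ.2
    have hc : (ℓ : ℤ) ∣ (γ : SL(2, ℤ)) 1 0 := (Int.natCast_dvd_natCast.mpr hℓN).trans hN
    obtain ⟨g', hg', h⟩ := heckeMatrix_mul_of_dvd (γ : SL(2, ℤ)) hc i
    refine ⟨_, ⟨g', s16lb_mem_Gamma0_of_dvd ?_⟩, h⟩
    rw [hg']
    exact dvd_mul_of_dvd_right hN _
  hun i j γ' h := OnePoint.coe_injective (s16lb_heckeRep_unique _ _ γ' h)

end Data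

end Fermat.Agent.S16LB
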