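import Fermat.Agent.S16.LB.HeckeDec
import Fermat.Agent.S21.Primitive

/-!
# S16 lower bound, piece 10: Eichler–Shimura equivariance.

The period character of `T_ℓ f` (resp. `U_ℓ f`) is the period character of `f` composed with the
cohomological Hecke operator.
-/

set_option autoImplicit false

namespace Fermat.Agent.S16LB

open P2MW.S_ModularForm_heckeT_slash_eq_self_of_mem_Gamma0.ModularForm.HeckeSlashInvariance
open ModularForm CongruenceSubgroup Matrix.SpecialLinearGroup UpperHalfPlane ModularCurve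
  ModularCurve.Period Filter Topology Fermat.Agent.S21
open scoped MatrixGroups ModularForm

/-- uniqueness of the primitive vanishing at `i∞`. -/
theorem s16lb_prim_unique (N : ℕ) [NeZero N] (g : CuspForm (Gamma0 N) 2) (G : ℍ → ℂ)
    (h1 : ∀ τ : ℍ, HasDerivAt (G ∘ ofComplex) (g τ) ↑τ) (h2 : Tendsto G atImInfty (𝓝 0)) :
    G = prim N g := by
  obtain ⟨a1, a2, -, -⟩ := prim_spec N g
  have hD : ∀ τ : ℍ, HasDerivAt ((fun w : ℍ => G w - prim N g w) ∘ ofComplex) 0 ↑τ := by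
    intro τ
    have h := (h1 τ).sub (a1 τ)
    rw [sub_self] at h
    exact h
  have hlim : Tendsto (fun w : ℍ => G w - prim N g w) atImInfty (𝓝 0) := by
    simpa using h2.sub a2
  have hconst : ∀ w : ℍ, G w - prim N g w = G UpperHalfPlane.I - prim N g UpperHalfPlane.I :=
    fun w => eq_of_hasDerivAt_zero hD w UpperHalfPlane.I
  have hlim' : Tendsto (fun w : ℍ => G w - prim N g w) atImInfty
      (𝓝 (G UpperHalfPlane.I - prim N g UpperHalfPlane.I)) :=
    tendsto_const_nhds.congr fun w => (hconst w).symm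
  have h0 := tendsto_nhds_unique hlim hlim'
  funext w
  have := hconst w
  rw [← h0] at this
  exact sub_eq_zero.mp this

variable {ℓ : ℕ} [Fact ℓ.Prime]

/-- the Möbius action of the representatives. -/
theorem s16lb_coe_heckeRep_smul (x : OnePoint (ZMod ℓ)) (τ : ℍ) :
    ((heckeRep ℓ x • τ : ℍ) : ℂ)
      = ((s16lbRepA ℓ x : ℂ) * τ + (s16lbRepB ℓ x : ℂ)) / (s16lbRepD ℓ x : ℂ) := by
  have hℓ : ℓ ≠ 0 := (Fact.out : ℓ.Prime).ne_zero
  induction x using OnePoint.rec with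
  | infty =>
    rw [heckeRep_infty, coe_heckeDiagMatrix_smul hℓ]
    simp [s16lbRepA, s16lbRepB, s16lbRepD]
  | coe j =>
    rw [heckeRep_coe, coe_heckeMatrix_smul hℓ]
    simp [-ZMod.natCast_val, s16lbRepA, s16lbRepB, s16lbRepD]

theorem s16lb_repA_pos (x : OnePoint (ZMod ℓ)) : 0 < s16lbRepA ℓ x := by
  have hℓ : 0 < ℓ := (Fact.out : ℓ.Prime).pos
  induction x using OnePoint.rec with
  | infty => exact hℓ
  | coe j => exact Nat.one_pos

theorem s16lb_repD_pos (x : OnePoint (ZMod ℓ)) : 0 < s16lbRepD ℓ x := by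
  have hℓ : 0 < ℓ := (Fact.out : ℓ.Prime).pos
  induction x using OnePoint.rec with
  | infty => exact Nat.one_pos
  | coe j => exact hℓ

theorem s16lb_slash_heckeRep (f : ℍ → ℂ) (x : OnePoint (ZMod ℓ)) (τ : ℍ) :
    (f ∣[(2 : ℤ)] heckeRep ℓ x) τ
      = f (heckeRep ℓ x • τ) * ((s16lbRepA ℓ x : ℂ) / (s16lbRepD ℓ x : ℂ)) := by
  have hℓ : ℓ ≠ 0 := (Fact.out : ℓ.Prime).ne_zero
  induction x using OnePoint.rec with
  | infty =>
    rw [heckeRep_infty, slash_heckeDiagMatrix_apply 2 hℓ]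
    simp [s16lbRepA, s16lbRepD, mul_comm]
  | coe j =>
    rw [heckeRep_coe, slash_heckeMatrix_apply 2 hℓ]
    simp [s16lbRepA, s16lbRepD, mul_comm]

/-- chain rule along a representative. -/
theorem s16lb_hasDerivAt_rep {F f : ℍ → ℂ}
    (hF : ∀ τ : ℍ, HasDerivAt (F ∘ ofComplex) (f τ) ↑τ) (x : OnePoint (ZMod ℓ)) (τ : ℍ) :
    HasDerivAt ((fun w : ℍ => F (heckeRep ℓ x • w)) ∘ ofComplex)
      ((f ∣[(2 : ℤ)] heckeRep ℓ x) τ) ↑τ := by
  set a : ℂ := (s16lbRepA ℓ x : ℂ) with ha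
  set b : ℂ := (s16lbRepB ℓ x : ℂ) with hb
  set d : ℂ := (s16lbRepD ℓ x : ℂ) with hd
  have hd0 : d ≠ 0 := by
    rw [hd]; exact_mod_cast (s16lb_repD_pos x).ne'
  have hcoe : ∀ w : ℍ, ((heckeRep ℓ x • w : ℍ) : ℂ) = (a * w + b) / d :=
    fun w => s16lb_coe_heckeRep_smul x w
  have hm : HasDerivAt (fun z : ℂ => (a * z + b) / d) (a / d) (τ : ℂ) := by
    have h1 : HasDerivAt (fun z : ℂ => a * z + b) a (τ : ℂ) := by
      simpa using ((hasDerivAt_id (τ : ℂ)).const_mul a).add_const b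
    exact h1.div_const d
  have hF' : HasDerivAt (F ∘ ofComplex) (f (heckeRep ℓ x • τ)) ((a * (τ : ℂ) + b) / d) := by
    rw [← hcoe τ]
    exact hF (heckeRep ℓ x • τ)
  have hcomp := hF'.comp (τ : ℂ) hm
  rw [← s16lb_slash_heckeRep f x τ] at hcomp
  refine hcomp.congr_of_eventuallyEq ?_
  filter_upwards [isOpen_upperHalfPlaneSet'.mem_nhds τ.im_pos] with z hz
  simp only [Function.comp_apply]
  congr 1
  apply UpperHalfPlane.ext
  rw [hcoe, ofComplex_apply_of_im_pos hz]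
  have : 0 < ((a * z + b) / d).im := by
    have := (heckeRep ℓ x • (⟨z, hz⟩ : ℍ)).im_pos
    rw [UpperHalfPlane.im, hcoe] at this
    exact this
  rw [ofComplex_apply_of_im_pos this]

/-- the representatives preserve the cusp `i∞`. -/
theorem s16lb_tendsto_rep (x : OnePoint (ZMod ℓ)) :
    Tendsto (fun w : ℍ => heckeRep ℓ x • w) atImInfty atImInfty := by
  rw [atImInfty, tendsto_comap_iff]
  have him : ∀ w : ℍ, (heckeRep ℓ x • w).im
      = ((s16lbRepA ℓ x : ℝ) / (s16lbRepD ℓ x : ℝ)) * w.im := by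
    intro w
    have h := s16lb_coe_heckeRep_smul x w
    have h2 := congrArg Complex.im h
    rw [UpperHalfPlane.coe_im] at h2
    rw [h2]
    have e : ((s16lbRepA ℓ x : ℂ) * w + (s16lbRepB ℓ x : ℂ)) / (s16lbRepD ℓ x : ℂ)
        = (((s16lbRepA ℓ x : ℝ) / (s16lbRepD ℓ x : ℝ) : ℝ) : ℂ) * w
          + (((s16lbRepB ℓ x : ℝ) / (s16lbRepD ℓ x : ℝ) : ℝ) : ℂ) := by
      push_cast; ring
    rw [e, Complex.add_im, Complex.im_ofReal_mul, Complex.ofReal_im, add_zero,
      UpperHalfPlane.coe_im]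
  have hpos : 0 < (s16lbRepA ℓ x : ℝ) / (s16lbRepD ℓ x : ℝ) :=
    div_pos (by exact_mod_cast s16lb_repA_pos x) (by exact_mod_cast s16lb_repD_pos x)
  have : Tendsto (fun w : ℍ => ((s16lbRepA ℓ x : ℝ) / (s16lbRepD ℓ x : ℝ)) * w.im)
      atImInfty atTop := Tendsto.const_mul_atTop hpos tendsto_comap
  exact this.congr fun w => (him w).symm

/-- **Eichler–Shimura equivariance**, generic form. -/
theorem s16lb_periodMap_hecke (N : ℕ) [NeZero N] {I : Type*} [Fintype I]
    (H : S16lbHeckeData (GL (Fin 2) ℝ) (Gamma0 N) I) (hι : H.ι = s16lbIota N)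
    (e : I → OnePoint (ZMod ℓ)) (hα : ∀ i, H.α i = heckeRep ℓ (e i))
    (f g : CuspForm (Gamma0 N) 2)
    (hg : ∀ τ : ℍ, g τ = ∑ i, (⇑f ∣[(2 : ℤ)] heckeRep ℓ (e i)) τ) :
    s16lbDesc (periodMap N g) = (s16lbDesc (periodMap N f)).comp H.trEnd := by
  obtain ⟨a1, a2, -, -⟩ := prim_spec N f
  -- the primitive of `g`
  have hG : (fun z : ℍ => ∑ i, prim N f (heckeRep ℓ (e i) • z)) = prim N g := by
    apply s16lb_prim_unique
    · intro τ
      rw [hg τ]
      have := HasDerivAt.sum (u := Finset.univ) fun i _ => s16lb_hasDerivAt_rep a1 (e i) τ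
      refine this.congr_of_eventuallyEq (Eventually.of_forall fun z => ?_)
      simp only [Function.comp_apply, Finset.sum_apply]
    · have : Tendsto (fun z : ℍ => ∑ i, prim N f (heckeRep ℓ (e i) • z)) atImInfty
          (𝓝 (∑ _i : I, (0 : ℂ))) :=
        tendsto_finset_sum _ fun i _ => a2.comp (s16lb_tendsto_rep (e i))
      simpa using this
  refine s16lbAb_ext fun γ => ?_
  obtain ⟨γ, rfl⟩ := Additive.ofMul.surjective γ
  have hcls : s16lbCls N (Additive.ofMul γ) = Additive.ofMul (Abelianization.of γ) := rfl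
  rw [s16lbDesc_cls, AddMonoidHom.comp_apply, hcls, S16lbHeckeData.trEnd_of, map_sum]
  have hcls' : ∀ δ : Gamma0 N,
      Additive.ofMul (Abelianization.of δ) = s16lbCls N (Additive.ofMul δ) := fun _ => rfl
  simp only [hcls', s16lbDesc_cls]
  rw [periodMap_apply, ← hG]
  have key := H.periods (prim N f) (periodMap N f) (fun δ z => by
    rw [hι]
    exact (periodMap_apply' N f δ z).symm) γ UpperHalfPlane.I
  rw [← key]
  simp only [hα, hι]
  rfl

end Fermat.Agent.S16LB
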