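import Fermat.Agent.S16.LB.HeckeChi
import Fermat.Agent.S16.LB.HeckePeriod

/-!
# S16 lower bound, piece 11: the leaf (HECKE).
-/

set_option autoImplicit false

namespace Fermat.Agent.S16LB

open P2MW.S_ModularForm_heckeT_slash_eq_self_of_mem_Gamma0.ModularForm.HeckeSlashInvariance
open ModularForm CongruenceSubgroup ModularCurve ModularCurve.Period CuspForm
open scoped MatrixGroups ModularForm

/-- **(HECKE)** -/
theorem s16lb_exists_tau (p : ℕ) [Fact p.Prime] (ℓ : Nat.Primes) :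
    ∃ θ : s16lbAb p →+ s16lbAb p,
      (∀ f : CuspForm (Gamma0 p) 2,
        s16lbDesc (periodMap p (((heckeFormsGen p 2 ℓ : heckeAlgebra p 2 ∅) :
          Module.End ℂ (CuspForm (Gamma0 p) 2)) f)) = (s16lbDesc (periodMap p f)).comp θ) ∧
      (∀ (A : Type) [AddCommGroup A] (χ₀ : (ZMod p)ˣ →* Multiplicative A),
        (s16lbDesc (s16lbChiOf χ₀)).comp θ
          = eisensteinSystem p ℓ • s16lbDesc (s16lbChiOf χ₀)) := by
  have : Fact (ℓ : ℕ).Prime := ⟨ℓ.2⟩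
  have : NeZero (ℓ : ℕ) := ⟨ℓ.2.ne_zero⟩
  by_cases h : (ℓ : ℕ) ∣ p
  · refine ⟨(s16lbDataU p ℓ h).trEnd, fun f => ?_, fun A _ χ₀ => ?_⟩
    · rw [heckeFormsGen_of_dvd h, heckeAlgebra.coe_U]
      refine s16lb_periodMap_hecke (ℓ := (ℓ : ℕ)) p (s16lbDataU p ℓ h) rfl
        (fun j => (j : OnePoint (ZMod (ℓ : ℕ)))) (fun _ => rfl) f _ (fun τ => ?_)
      rw [CuspForm.heckeULin_apply_apply, heckeU_eq_sum_zmod, Finset.sum_apply]
      rfl
    · rw [s16lb_eigen_U p ℓ χ₀ h, eisensteinSystem_of_dvd h, one_smul]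
      have hℓp : (ℓ : ℕ) = p := (Nat.prime_dvd_prime_iff_eq ℓ.2 Fact.out).mp h
      refine s16lbAb_ext fun γ => ?_
      obtain ⟨γ, rfl⟩ := Additive.ofMul.surjective γ
      rw [AddMonoidHom.smul_apply, s16lbDesc_cls, s16lbChiOf_apply, hℓp]
      set u := s16lbDUnit p γ
      have h1 : χ₀ u ^ (p - 1) = 1 := by
        rw [← map_pow, ZMod.units_pow_card_sub_one_eq_one, map_one]
      have h2 : (p - 1) • Multiplicative.toAdd (χ₀ u) = 0 := by
        rw [← toAdd_pow, h1, toAdd_one]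
      have hp : 1 ≤ p := (Fact.out : p.Prime).one_lt.le
      have h3 : ((p : ℕ) : ℤ) = ((p - 1 : ℕ) : ℤ) + 1 := by
        rw [Nat.cast_sub hp]; ring
      rw [h3, add_smul, natCast_zsmul, h2, zero_add, one_smul]
  · refine ⟨(s16lbDataT p ℓ h).trEnd, fun f => ?_, fun A _ χ₀ => ?_⟩
    · rw [heckeFormsGen_of_not_dvd h, heckeAlgebra.coe_T]
      refine s16lb_periodMap_hecke (ℓ := (ℓ : ℕ)) p (s16lbDataT p ℓ h) rfl
        id (fun _ => rfl) f _ (fun τ => ?_)
      rw [CuspForm.heckeTLin_apply_apply, heckeT_eq_sum_onePoint, Finset.sum_apply]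
      rfl
    · rw [s16lb_eigen_T p ℓ χ₀ h, eisensteinSystem_of_not_dvd h]
      push_cast
      rfl

end Fermat.Agent.S16LB
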