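import Mathlib

/-!
# S16 lower bound, piece 4: lifting `ℤ/n`-valued functions with orbit-sum zero to `ℤ`.
-/

set_option autoImplicit false

namespace Fermat.Agent.S16LB

variable {X : Type*} [Countable X] {n : ℕ}

/-- order two. -/
theorem s16lb_lift_two (σ : X → X) (hσ : ∀ x, σ (σ x) = x) (f : X → ZMod n)
    (hf : ∀ x, f x + f (σ x) = 0) (hfix : ∀ x, σ x = x → f x = 0) :
    ∃ F : X → ℤ, (∀ x, F x + F (σ x) = 0) ∧ ∀ x, ((F x : ℤ) : ZMod n) = f x := by
  classical
  obtain ⟨ι, hι⟩ := exists_injective_nat X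
  let F : X → ℤ := fun x =>
    if ι x < ι (σ x) then (f x).cast else if ι (σ x) < ι x then - (f (σ x)).cast else 0
  refine ⟨F, fun x => ?_, fun x => ?_⟩
  · simp only [F, hσ]
    rcases lt_trichotomy (ι x) (ι (σ x)) with h | h | h
    · rw [if_pos h, if_neg (not_lt.mpr h.le), if_pos h]; ring
    · rw [h]; simp
    · rw [if_neg (not_lt.mpr h.le), if_pos h, if_pos h]; ring
  · simp only [F]
    rcases lt_trichotomy (ι x) (ι (σ x)) with h | h | h
    · rw [if_pos h]; simp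
    · rw [h, if_neg (lt_irrefl _), if_neg (lt_irrefl _), hfix x (hι h).symm]; simp
    · rw [if_neg (not_lt.mpr h.le), if_pos h]
      push_cast
      linear_combination - hf x

/-- order three. -/
theorem s16lb_lift_three (ρ : X → X) (hρ : ∀ x, ρ (ρ (ρ x)) = x) (f : X → ZMod n)
    (hf : ∀ x, f x + f (ρ x) + f (ρ (ρ x)) = 0) (hfix : ∀ x, ρ x = x → f x = 0) :
    ∃ F : X → ℤ, (∀ x, F x + F (ρ x) + F (ρ (ρ x)) = 0) ∧
      ∀ x, ((F x : ℤ) : ZMod n) = f x := by
  classical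
  obtain ⟨ι, hι⟩ := exists_injective_nat X
  let F : X → ℤ := fun x =>
    if ρ x = x then 0
    else if ι (ρ x) < ι x ∧ ι (ρ (ρ x)) < ι x then - (f (ρ x)).cast - (f (ρ (ρ x))).cast
    else (f x).cast
  have hfix1 : ∀ x, ρ (ρ x) = ρ x ↔ ρ x = x := by
    intro x
    constructor
    · intro h
      have := congrArg ρ h
      rw [hρ] at this
      rw [← h, ← this]
    · intro h; rw [h, h]
  have hfix2 : ∀ x, ρ (ρ x) = x ↔ ρ x = x := by
    intro x
    constructor
    · intro h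
      have := congrArg ρ h
      rw [hρ] at this
      exact this.symm
    · intro h; rw [h, h]
  refine ⟨F, fun x => ?_, fun x => ?_⟩
  · have hfix3 : ∀ x, x = ρ (ρ x) ↔ ρ x = x := fun x => eq_comm.trans (hfix2 x)
    simp only [F, hρ, hfix1, hfix3]
    by_cases hx : ρ x = x
    · simp [hx]
    · simp only [hx, if_false]
      have h1 : ι (ρ x) ≠ ι x := fun h => hx (hι h)
      have h2 : ι (ρ (ρ x)) ≠ ι x := fun h => hx ((hfix2 x).mp (hι h))
      have h3 : ι (ρ (ρ x)) ≠ ι (ρ x) := fun h => hx ((hfix1 x).mp (hι h))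
      by_cases c1 : ι (ρ x) < ι x ∧ ι (ρ (ρ x)) < ι x
      · have c2 : ¬ (ι (ρ (ρ x)) < ι (ρ x) ∧ ι x < ι (ρ x)) := by omega
        have c3 : ¬ (ι x < ι (ρ (ρ x)) ∧ ι (ρ x) < ι (ρ (ρ x))) := by omega
        rw [if_pos c1, if_neg c2, if_neg c3]; ring
      · by_cases c2 : ι (ρ (ρ x)) < ι (ρ x) ∧ ι x < ι (ρ x)
        · have c3 : ¬ (ι x < ι (ρ (ρ x)) ∧ ι (ρ x) < ι (ρ (ρ x))) := by omega
          rw [if_neg c1, if_pos c2, if_neg c3]; ring
        · have c3 : ι x < ι (ρ (ρ x)) ∧ ι (ρ x) < ι (ρ (ρ x)) := by omega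
          rw [if_neg c1, if_neg c2, if_pos c3]; ring
  · simp only [F]
    by_cases hx : ρ x = x
    · rw [if_pos hx, hfix x hx]; simp
    · rw [if_neg hx]
      by_cases c1 : ι (ρ x) < ι x ∧ ι (ρ (ρ x)) < ι x
      · rw [if_pos c1]
        push_cast
        linear_combination - hf x
      · rw [if_neg c1]; simp

end Fermat.Agent.S16LB
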