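import Fermat.Agent.S16.LB.ParCrit
import Fermat.Agent.S16.LB.Lift
import Fermat.Agent.S16.LB.Defs
import Fermat.Agent.S24.Hurwitz

/-!
# S16 lower bound, piece 6: the parabolic lift (PARLIFT)
-/

set_option autoImplicit false

namespace Fermat.Agent.S16LB

open scoped MatrixGroups
open ModularGroup CongruenceSubgroup ModularCurve.Period Fermat.Agent.S24

section P1facts

variable (p : ℕ) [Fact p.Prime]

omit [Fact p.Prime] in
theorem s16lb_P1_neg (x : P1 (ZMod p)) : (-1 : SL(2, ℤ)) • x = x := by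
  have := P1.S_sq_smul x
  rwa [pow_two, s16lb_S_mul_S] at this

omit [Fact p.Prime] in
theorem s16lb_P1_mem_Gamma0 (g : SL(2, ℤ)) :
    g ∈ Gamma0 p ↔ g • (P1.base : P1 (ZMod p)) = P1.base := by
  rw [← P1.stabilizer_base (N := p), MulAction.mem_stabilizer_iff]

theorem s16lb_P1_T_base : T • (P1.base : P1 (ZMod p)) = P1.base := by
  rw [← s16lb_P1_mem_Gamma0, Gamma0_mem]
  simp [ModularGroup.T]

theorem s16lb_P1_S_base : S • (P1.base : P1 (ZMod p)) ≠ P1.base := by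
  rw [Ne, ← s16lb_P1_mem_Gamma0, Gamma0_mem]
  simp [ModularGroup.S]

theorem s16lb_P1_T_zpow_affine (m : ℤ) (t : ZMod p) :
    T ^ m • (P1.mk (Unimod.affine t) : P1 (ZMod p)) = P1.mk (Unimod.affine (t + m)) := by
  rw [P1.smul_mk, P1.mk_eq_mk, Unimod.T_zpow_smul_fst, Unimod.T_zpow_smul_snd]
  simp [Unimod.affine]

theorem s16lb_P1_affine_ne_base (t : ZMod p) :
    (P1.mk (Unimod.affine t) : P1 (ZMod p)) ≠ P1.base := by
  rw [Ne, P1.base, P1.mk_eq_mk]
  simp [Unimod.affine, Unimod.base]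

theorem s16lb_P1_cases (y : P1 (ZMod p)) :
    y = P1.base ∨ ∃ t : ZMod p, y = P1.mk (Unimod.affine t) := by
  obtain ⟨v, rfl⟩ := P1.mk_surjective y
  by_cases hc : v.1.2 = 0
  · left
    rw [P1.base, P1.mk_eq_mk]
    simp [Unimod.base, hc]
  · right
    obtain ⟨t, ht, -⟩ := P1.eq_mk_affine_of_isUnit (v := v) (IsUnit.mk0 _ hc)
    exact ⟨t, ht⟩

theorem s16lb_P1_T_pow (y : P1 (ZMod p)) : T ^ p • y = y := by
  rcases s16lb_P1_cases p y with rfl | ⟨t, rfl⟩
  · have := (Subgroup.pow_mem (Gamma0 p) ((s16lb_P1_mem_Gamma0 p T).mpr (s16lb_P1_T_base p)) p)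
    exact (s16lb_P1_mem_Gamma0 p _).mp this
  · have := s16lb_P1_T_zpow_affine p (p : ℤ) t
    rw [zpow_natCast] at this
    rw [this]
    simp

theorem s16lb_P1_orb (y : P1 (ZMod p)) (hy : y ≠ P1.base) (m : ℤ) (h : T ^ m • y = y) :
    (p : ℤ) ∣ m := by
  rcases s16lb_P1_cases p y with rfl | ⟨t, rfl⟩
  · exact absurd rfl hy
  · rw [s16lb_P1_T_zpow_affine] at h
    have := P1.mk_affine_injective h
    simp only [add_eq_left] at this
    exact (ZMod.intCast_zmod_eq_zero_iff_dvd _ _).mp this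

theorem s16lb_sum_range_zmod {M : Type*} [AddCommMonoid M] (g : ZMod p → M) :
    ∑ i ∈ Finset.range p, g (i : ZMod p) = ∑ u : ZMod p, g u := by
  have : NeZero p := ⟨(Fact.out : p.Prime).ne_zero⟩
  refine Finset.sum_nbij' (fun j : ℕ => (j : ZMod p)) (fun x : ZMod p => x.val)
    (fun _ _ => Finset.mem_univ _) (fun x _ => Finset.mem_range.mpr x.val_lt) (fun j hj => ?_)
    (fun x _ => ?_) (fun j hj => rfl)
  · exact ZMod.val_cast_of_lt (Finset.mem_range.mp hj)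
  · exact ZMod.natCast_zmod_val x

theorem s16lb_P1_sum [Fintype (P1 (ZMod p))] (f : P1 (ZMod p) → ℤ) (y : P1 (ZMod p))
    (hy : y ≠ P1.base) :
    ∑ i ∈ Finset.range p, f (T ^ i • y) = ∑ x, f x - f P1.base := by
  classical
  rcases s16lb_P1_cases p y with rfl | ⟨t, rfl⟩
  · exact absurd rfl hy
  · have h1 : ∀ i : ℕ, T ^ i • (P1.mk (Unimod.affine t) : P1 (ZMod p))
        = P1.mk (Unimod.affine (t + (i : ZMod p))) := by
      intro i
      have := s16lb_P1_T_zpow_affine p (i : ℤ) t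
      rw [zpow_natCast] at this
      rw [this]; simp
    simp only [h1]
    have h2 : ∑ u : ZMod p, f (P1.mk (Unimod.affine (t + u)))
        = ∑ u : ZMod p, f (P1.mk (Unimod.affine u)) :=
      Equiv.sum_comp (Equiv.addLeft t) (fun u => f (P1.mk (Unimod.affine u)))
    rw [s16lb_sum_range_zmod p (fun u => f (P1.mk (Unimod.affine (t + u)))), h2]
    have huniv : (Finset.univ : Finset (P1 (ZMod p)))
        = insert P1.base (Finset.univ.image fun u : ZMod p => P1.mk (Unimod.affine u)) := by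
      ext x
      simp only [Finset.mem_univ, Finset.mem_insert, Finset.mem_image, true_and, true_iff]
      rcases s16lb_P1_cases p x with rfl | ⟨u, rfl⟩
      · exact Or.inl rfl
      · exact Or.inr ⟨u, rfl⟩
    have hnot : (P1.base : P1 (ZMod p)) ∉
        Finset.univ.image fun u : ZMod p => P1.mk (Unimod.affine u) := by
      simp only [Finset.mem_image, Finset.mem_univ, true_and, not_exists]
      intro u hu
      exact s16lb_P1_affine_ne_base p u hu
    rw [huniv, Finset.sum_insert hnot, Finset.sum_image (fun a _ b _ h => P1.mk_affine_injective h)]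
    ring

end P1facts

theorem s16lb_neg_one_pow_twelve : (-1 : SL(2, ℤ)) ^ 12 = 1 := by
  have : (12 : ℕ) = 2 * 6 := rfl
  rw [this, pow_mul, neg_one_sq, one_pow]

theorem s16lb_S_pow_twelve : S ^ 12 = 1 := by
  have : (12 : ℕ) = 2 * 6 := rfl
  rw [this, pow_mul, pow_two, s16lb_S_mul_S]
  have : (6 : ℕ) = 2 * 3 := rfl
  rw [this, pow_mul, neg_one_sq, one_pow]

theorem s16lb_U_pow_twelve : s16lbU ^ 12 = 1 := by
  have h3 : s16lbU ^ 3 = -1 := by rw [pow_succ, pow_two, s16lb_U_cube]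
  have : (12 : ℕ) = 3 * 4 := rfl
  rw [this, pow_mul, h3]
  have : (4 : ℕ) = 2 * 2 := rfl
  rw [this, pow_mul, neg_one_sq, one_pow]

/-- **(PARLIFT)** -/
theorem s16lb_exists_parabolic_lift (p : ℕ) [Fact p.Prime] (n : ℕ) [NeZero n]
    (χ : Additive (Gamma0 p) →+ ZMod n)
    (h12 : ∀ η : Gamma0 p, η ^ 12 = 1 → χ (Additive.ofMul η) = 0)
    (hT : ∀ h : ModularGroup.T ∈ Gamma0 p, χ (Additive.ofMul ⟨ModularGroup.T, h⟩) = 0) :
    ∃ χt : Additive (Gamma0 p) →+ ℤ, IsParabolicHom (Gamma0 p) χt ∧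
      ∀ γ : Additive (Gamma0 p), ((χt γ : ℤ) : ZMod n) = χ γ := by
  classical
  have : Fintype (P1 (ZMod p)) := Fintype.ofFinite _
  obtain ⟨x₀, hx₀⟩ : ∃ x₀ : P1 (ZMod p), x₀ = P1.base := ⟨_, rfl⟩
  have hneg := s16lb_P1_neg p
  have hH : ∀ g : SL(2, ℤ), g ∈ Gamma0 p ↔ g • x₀ = x₀ := hx₀ ▸ s16lb_P1_mem_Gamma0 p
  have hT0 : T • x₀ = x₀ := hx₀ ▸ s16lb_P1_T_base p
  have hTmem : T ∈ Gamma0 p := (hH T).mpr hT0
  -- a section of the orbit map
  let s : P1 (ZMod p) → SL(2, ℤ) := fun x => (MulAction.exists_smul_eq SL(2, ℤ) x₀ x).choose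
  have hs : ∀ x, s x • x₀ = x := fun x => (MulAction.exists_smul_eq SL(2, ℤ) x₀ x).choose_spec
  -- the mod `n` cocycle
  obtain ⟨d, hd_def⟩ : ∃ d, d = s16lbInd (Gamma0 p) x₀ hH s hs χ := ⟨_, rfl⟩
  have hd : S16lbIsCoc d := hd_def ▸ s16lbInd_isCoc _ _ hH s hs χ
  have hfix : ∀ (g : SL(2, ℤ)) (x : P1 (ZMod p)), g ^ 12 = 1 → g • x = x → d g x = 0 := by
    intro g x hg hx
    obtain ⟨η, hη, h⟩ := s16lbInd_fixed (Gamma0 p) x₀ hH s hs χ g x hx
    rw [hd_def, h]
    apply h12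
    apply Subtype.ext
    rw [SubmonoidClass.coe_pow, hη]
    have e : (s x)⁻¹ * g * s x = (s x)⁻¹ * g * ((s x)⁻¹)⁻¹ := by rw [inv_inv]
    rw [e, conj_pow, hg]
    simp
  have hdneg : ∀ x, d (-1) x = 0 := fun x => hfix (-1) x s16lb_neg_one_pow_twelve (hneg x)
  have hdS : ∀ x, d S x + d S (S • x) = 0 := by
    intro x
    have := hd S S x
    rw [s16lb_S_mul_S, hdneg] at this
    exact this.symm
  have hdU : ∀ x, d s16lbU x + d s16lbU (s16lbU • x) + d s16lbU (s16lbU • s16lbU • x) = 0 := by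
    intro x
    have h := hd (s16lbU * s16lbU) s16lbU x
    rw [s16lb_U_cube, hdneg, hd] at h
    rw [h]; abel
  have hSS : ∀ x : P1 (ZMod p), S • S • x = x := fun x => by
    rw [← mul_smul, s16lb_S_mul_S, hneg]
  have hUUU : ∀ x : P1 (ZMod p), s16lbU • s16lbU • s16lbU • x = x := fun x => by
    rw [← mul_smul, ← mul_smul, s16lb_U_cube, hneg]
  -- integral lifts on the generators
  obtain ⟨FS, hFS, hFS'⟩ := s16lb_lift_two (fun x : P1 (ZMod p) => S • x) hSS (d S) hdS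
    (fun x hx => hfix S x s16lb_S_pow_twelve hx)
  obtain ⟨FU, hFU, hFU'⟩ := s16lb_lift_three (fun x : P1 (ZMod p) => s16lbU • x) hUUU
    (d s16lbU) hdU (fun x hx => hfix s16lbU x s16lb_U_pow_twelve hx)
  obtain ⟨dt, hdt0, hdtS, hdtU⟩ := s16lb_exists_cocycle hneg FS FU hFS hFU
  have hdt : S16lbIsCoc dt := hdt0
  -- its reduction is `d`
  have hred : (fun g x => ((dt g x : ℤ) : ZMod n)) = d := by
    refine (hdt.map (Int.castAddHom (ZMod n))).ext_of_closure hd s16lb_closure_S_U ?_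
    rintro g (rfl | rfl)
    · funext x
      show ((dt S x : ℤ) : ZMod n) = d S x
      rw [hdtS, hFS']
    · funext x
      show ((dt s16lbU x : ℤ) : ZMod n) = d s16lbU x
      rw [hdtU, hFU']
  have hred' : ∀ g x, ((dt g x : ℤ) : ZMod n) = d g x := fun g x =>
    congrFun (congrFun hred g) x
  -- the correction cocycle
  have hSx₀ : S • x₀ ≠ x₀ := hx₀ ▸ s16lb_P1_S_base p
  let eS : P1 (ZMod p) → ℤ := fun x => (if x = x₀ then 1 else 0) - (if x = S • x₀ then 1 else 0)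
  have heS : ∀ x, eS x + eS (S • x) = 0 := by
    intro x
    have e1 : S • x = x₀ ↔ x = S • x₀ := by
      constructor
      · intro h; rw [← h, hSS]
      · intro h; rw [h, hSS]
    have e2 : S • x = S • x₀ ↔ x = x₀ := (MulAction.injective S).eq_iff
    simp only [eS, e1, e2]
    ring
  obtain ⟨ψ, hψ0, hψS, hψU⟩ := s16lb_exists_cocycle hneg eS (fun _ => (0 : ℤ)) heS
    (fun x => by simp)
  have hψ : S16lbIsCoc ψ := hψ0
  have hψT : ψ T x₀ = -1 := by
    have h := hψ S T x₀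
    have hU : ψ (S * T) x₀ = 0 := by
      show ψ s16lbU x₀ = 0
      rw [hψU]
    rw [hU, hT0, hψS] at h
    have : eS x₀ = 1 := by
      simp only [eS]
      rw [if_neg (Ne.symm hSx₀)]
      simp
    omega
  -- the residue at the cusp `x₀` is divisible by `n`
  have hdtT : ((dt T x₀ : ℤ) : ZMod n) = 0 := by
    rw [hred', hd_def]
    have := s16lbInd_base (Gamma0 p) x₀ hH s hs χ ⟨T, hTmem⟩
    rw [this]
    exact hT hTmem
  obtain ⟨m, hm⟩ := (ZMod.intCast_zmod_eq_zero_iff_dvd _ _).mp hdtT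
  have hDcoc : S16lbIsCoc fun g x => dt g x + ((n : ℤ) * m) • ψ g x :=
    hdt.add (hψ.zsmul ((n : ℤ) * m))
  have hD0 : dt T x₀ + ((n : ℤ) * m) • ψ T x₀ = 0 := by
    rw [hψT, hm]; simp
  refine ⟨hDcoc.toHom (Gamma0 p) x₀ (fun g hg => (hH g).mp hg), ?_, ?_⟩
  · intro γ hγ
    rw [S16lbIsCoc.toHom_apply]
    exact s16lb_parabolic_crit hneg hDcoc x₀ p hT0 (s16lb_P1_T_pow p)
      (hx₀ ▸ s16lb_P1_orb p) (hx₀ ▸ s16lb_P1_sum p) hD0 γ ((hH _).mp γ.2) hγ
  · intro γ
    obtain ⟨γ, rfl⟩ := Additive.ofMul.surjective γ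
    rw [S16lbIsCoc.toHom_apply]
    push_cast
    rw [hred', hd_def]
    rw [smul_eq_mul, Int.cast_mul, Int.cast_mul, Int.cast_natCast, ZMod.natCast_self, zero_mul,
      zero_mul, add_zero]
    exact s16lbInd_base (Gamma0 p) x₀ hH s hs χ γ

end Fermat.Agent.S16LB
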