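import Fermat.Agent.S16.LB.Chi
import Fermat.Agent.S16.LB.ParLift
import Fermat.Agent.S16.LB.HeckeMain
import Fermat.Agent.S21

set_option autoImplicit false

/-!
# S16, lower bound package: assembly

`s16lb_main`: if `P ∈ ℤ[T_ℓ]` kills `S₂(Γ₀(p))` then `eisensteinNumerator p ∣ P(1 + ℓ, 1)`.
-/

namespace Fermat.Agent.S16LB

open CongruenceSubgroup ModularCurve ModularCurve.Period CuspForm
open scoped MatrixGroups ComplexConjugate

/-- Evaluation of a Hecke polynomial as an endomorphism of `S₂(Γ₀(p))`. -/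
noncomputable def s16lbEv (p : ℕ) [Fact p.Prime] :
    HeckeAlg →+* Module.End ℂ (CuspForm (Gamma0 p) 2) :=
  (heckeAlgebra p 2 ∅).val.toRingHom.comp (heckeEvalForms p 2)

theorem s16lbEv_apply (p : ℕ) [Fact p.Prime] (P : HeckeAlg) :
    s16lbEv p P = ((heckeEvalForms p 2 P : heckeAlgebra p 2 ∅) :
      Module.End ℂ (CuspForm (Gamma0 p) 2)) := rfl

/-- The induction invariant. -/
def s16lbInv (p : ℕ) [Fact p.Prime] (P : HeckeAlg) : Prop :=
  ∃ θ : s16lbAb p →+ s16lbAb p,
    (∀ f : CuspForm (Gamma0 p) 2,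
      s16lbDesc (periodMap p (s16lbEv p P f)) = (s16lbDesc (periodMap p f)).comp θ) ∧
    (∀ (A : Type) [AddCommGroup A] (χ₀ : (ZMod p)ˣ →* Multiplicative A),
      (s16lbDesc (s16lbChiOf χ₀)).comp θ
        = (MvPolynomial.aeval (eisensteinSystem p) P : ℤ) • s16lbDesc (s16lbChiOf χ₀))

theorem s16lb_periodMap_add (p : ℕ) [Fact p.Prime] (f g : CuspForm (Gamma0 p) 2) :
    periodMap p (f + g) = periodMap p f + periodMap p g :=
  (Fermat.Agent.S21.pml p).map_add f g

theorem s16lb_periodMap_zsmul (p : ℕ) [Fact p.Prime] (a : ℤ) (f : CuspForm (Gamma0 p) 2) :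
    periodMap p (a • f) = a • periodMap p f :=
  map_zsmul (Fermat.Agent.S21.pml p) a f

theorem s16lb_periodMap_zero (p : ℕ) [Fact p.Prime] :
    periodMap p (0 : CuspForm (Gamma0 p) 2) = 0 :=
  (Fermat.Agent.S21.pml p).map_zero

theorem s16lbInv_all (p : ℕ) [Fact p.Prime] (P : HeckeAlg) : s16lbInv p P := by
  induction P using MvPolynomial.induction_on with
  | C a =>
    refine ⟨a • AddMonoidHom.id _, fun f => ?_, fun A _ χ₀ => ?_⟩
    · have h1 : s16lbEv p (MvPolynomial.C a) f = a • f := by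
        rw [s16lbEv_apply, heckeEvalForms_C]
        simp
      rw [h1, s16lb_periodMap_zsmul, s16lbDesc_zsmul]
      refine AddMonoidHom.ext fun x => ?_
      simp
    · refine AddMonoidHom.ext fun x => ?_
      simp
  | add P Q hP hQ =>
    obtain ⟨θ₁, h1, h1'⟩ := hP
    obtain ⟨θ₂, h2, h2'⟩ := hQ
    refine ⟨θ₁ + θ₂, fun f => ?_, fun A _ χ₀ => ?_⟩
    · rw [map_add, LinearMap.add_apply, s16lb_periodMap_add, s16lbDesc_add, h1, h2]
      refine AddMonoidHom.ext fun x => ?_
      simp
    · refine AddMonoidHom.ext fun x => ?_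
      have e1 := DFunLike.congr_fun (h1' A χ₀) x
      have e2 := DFunLike.congr_fun (h2' A χ₀) x
      simp only [AddMonoidHom.comp_apply, AddMonoidHom.smul_apply] at e1 e2
      simp only [AddMonoidHom.comp_apply, AddMonoidHom.add_apply, map_add,
        AddMonoidHom.smul_apply, e1, e2, add_smul]
  | mul_X P ℓ hP =>
    obtain ⟨θ, h1, h1'⟩ := hP
    obtain ⟨τ, h2, h2'⟩ := s16lb_exists_tau p ℓ
    refine ⟨τ.comp θ, fun f => ?_, fun A _ χ₀ => ?_⟩
    · have e : s16lbEv p (P * MvPolynomial.X ℓ) f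
          = s16lbEv p P (((heckeFormsGen p 2 ℓ : heckeAlgebra p 2 ∅) :
              Module.End ℂ (CuspForm (Gamma0 p) 2)) f) := by
        rw [map_mul, Module.End.mul_apply, s16lbEv_apply p (MvPolynomial.X ℓ)]
        congr 2
        exact congrArg Subtype.val (heckeEvalForms_heckeGen p 2 ℓ)
      rw [e, h1, h2, AddMonoidHom.comp_assoc]
    · rw [← AddMonoidHom.comp_assoc, h2' A χ₀]
      refine AddMonoidHom.ext fun x => ?_
      have e1 := DFunLike.congr_fun (h1' A χ₀) x
      simp only [AddMonoidHom.comp_apply, AddMonoidHom.smul_apply] at e1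
      simp only [AddMonoidHom.comp_apply, AddMonoidHom.smul_apply, e1, map_mul,
        MvPolynomial.aeval_X, smul_smul]
      rw [mul_comm]

theorem s16lb_numerator_ne_zero (p : ℕ) [Fact p.Prime] : eisensteinNumerator p ≠ 0 := by
  have hp : 1 < p := (Fact.out : p.Prime).one_lt
  unfold eisensteinNumerator
  have h1 : 0 < p - 1 := by omega
  exact (Nat.div_pos (Nat.le_of_dvd h1 (Nat.gcd_dvd_left _ _))
    (Nat.gcd_pos_of_pos_left _ h1)).ne'

/-- **Lower bound.** A Hecke polynomial killing `S₂(Γ₀(p))` has Eisenstein value divisible by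
the numerator of `(p - 1) / 12`. -/
theorem s16lb_main (p : ℕ) [Fact p.Prime] (P : HeckeAlg)
    (hP : heckeEvalForms p 2 P = 0) :
    ((eisensteinNumerator p : ℕ) : ℤ) ∣ MvPolynomial.aeval (eisensteinSystem p) P := by
  have : NeZero (eisensteinNumerator p) := ⟨s16lb_numerator_ne_zero p⟩
  obtain ⟨θ, h1, h2⟩ := s16lbInv_all p P
  have hev : s16lbEv p P = 0 := by rw [s16lbEv_apply, hP]; rfl
  have hzero : ∀ f : CuspForm (Gamma0 p) 2, (s16lbDesc (periodMap p f)).comp θ = 0 := by
    intro f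
    rw [← h1 f, hev, LinearMap.zero_apply, s16lb_periodMap_zero, s16lbDesc_zero]
  -- the same for the conjugate periods
  let cj : ℂ →+ ℂ := (starRingEnd ℂ).toAddMonoidHom
  have hι : ∀ f : CuspForm (Gamma0 p) 2,
      (s16lbDesc (charInvolution p ℂ ℂ (periodMap p f))).comp θ = 0 := by
    intro f
    have e : s16lbDesc (charInvolution p ℂ ℂ (periodMap p f))
        = - (cj.comp (s16lbDesc (periodMap p (Fermat.Agent.S21.conjForm p f)))) := by
      refine s16lbAb_ext fun γ => ?_
      rw [s16lbDesc_cls, Fermat.Agent.S21.charInvolution_periodMap]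
      simp [cj]
    rw [e]
    refine AddMonoidHom.ext fun x => ?_
    have := DFunLike.congr_fun (hzero (Fermat.Agent.S21.conjForm p f)) x
    simp only [AddMonoidHom.comp_apply, AddMonoidHom.zero_apply] at this
    simp [this]
  -- hence for all parabolic characters
  have hpar : ∀ φ ∈ parabolicHoms ℂ (Gamma0 p) ℂ, (s16lbDesc φ).comp θ = 0 := by
    intro φ hφ
    rw [← (Fermat.Agent.S21.result p).2] at hφ
    obtain ⟨⟨f, g⟩, rfl⟩ := hφ
    rw [Fermat.Agent.S21.periodHomPair_eq]
    simp only [LinearMap.coprod_apply, LinearMap.comp_apply, LinearMap.add_apply,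
      LinearMap.sub_apply, LinearMap.id_apply, Fermat.Agent.S21.pml_apply]
    refine AddMonoidHom.ext fun x => ?_
    have a1 := DFunLike.congr_fun (hzero f) x
    have a2 := DFunLike.congr_fun (hzero g) x
    have a3 := DFunLike.congr_fun (hι f) x
    have a4 := DFunLike.congr_fun (hι g) x
    simp only [AddMonoidHom.comp_apply, AddMonoidHom.zero_apply] at a1 a2 a3 a4
    rw [sub_eq_add_neg, ← neg_one_zsmul, s16lbDesc_add, s16lbDesc_add, s16lbDesc_add,
      s16lbDesc_zsmul]
    simp only [AddMonoidHom.comp_apply, AddMonoidHom.add_apply, AddMonoidHom.smul_apply,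
      AddMonoidHom.zero_apply, a1, a2, a3, a4]
    simp
  -- the Eisenstein character and its parabolic lift
  obtain ⟨χ₀, hsurj, h12⟩ := s16lb_exists_chi0 p
  obtain ⟨χt, hχt, hlift⟩ := s16lb_exists_parabolic_lift p (eisensteinNumerator p)
    (s16lbChiOf χ₀)
    (fun η hη => by
      rw [s16lbChiOf_apply]
      have : s16lbDUnit p η ^ 12 = 1 := by rw [← map_pow, hη, map_one]
      rw [h12 _ this]; rfl)
    (fun h => by
      rw [s16lbChiOf_apply]
      have : s16lbDUnit p ⟨ModularGroup.T, h⟩ = 1 := by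
        apply Units.ext
        rw [s16lbDUnit_coe]
        simp [ModularGroup.T]
      rw [this, map_one]; rfl)
  -- complexify
  have hχtC : (Int.castAddHom ℂ).comp χt ∈ parabolicHoms ℂ (Gamma0 p) ℂ := by
    rw [mem_parabolicHoms_iff]
    intro γ hγ
    show ((χt (Additive.ofMul γ) : ℤ) : ℂ) = 0
    rw [hχt γ hγ, Int.cast_zero]
  have h3 : (s16lbDesc χt).comp θ = 0 := by
    have := hpar _ hχtC
    rw [s16lbDesc_postcomp, AddMonoidHom.comp_assoc] at this
    refine AddMonoidHom.ext fun x => ?_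
    have := DFunLike.congr_fun this x
    simp only [AddMonoidHom.comp_apply, AddMonoidHom.zero_apply, Int.coe_castAddHom,
      Int.cast_eq_zero] at this
    exact this
  -- reduce mod n
  have h4 : (s16lbDesc (s16lbChiOf χ₀)).comp θ = 0 := by
    have e : s16lbChiOf χ₀ = (Int.castAddHom (ZMod (eisensteinNumerator p))).comp χt :=
      AddMonoidHom.ext fun γ => (hlift γ).symm
    rw [e, s16lbDesc_postcomp, AddMonoidHom.comp_assoc, h3, AddMonoidHom.comp_zero]
  rw [h2 (ZMod (eisensteinNumerator p)) χ₀] at h4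
  -- evaluate at an element with `χ = 1`
  obtain ⟨u, hu⟩ := hsurj (Multiplicative.ofAdd 1)
  obtain ⟨γ, hγ⟩ := s16lbDUnit_surjective p u
  have h5 := DFunLike.congr_fun h4 (s16lbCls p (Additive.ofMul γ))
  rw [AddMonoidHom.smul_apply, s16lbDesc_cls, s16lbChiOf_apply, hγ, hu, toAdd_ofAdd,
    AddMonoidHom.zero_apply, zsmul_one] at h5
  exact (ZMod.intCast_zmod_eq_zero_iff_dvd _ _).mp h5

end Fermat.Agent.S16LB
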