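import Fermat.Agent.S16.LB.Defs

/-!
# S16 lower bound, piece 12: the leaves (CHI0) and (DSURJ).
-/

set_option autoImplicit false

namespace Fermat.Agent.S16LB

open CongruenceSubgroup ModularCurve
open scoped MatrixGroups

/-- (CHI0) a surjective character `(ℤ/p)ˣ → ℤ/n` killing the 12-torsion. -/
theorem s16lb_exists_chi0 (p : ℕ) [Fact p.Prime] :
    ∃ χ₀ : (ZMod p)ˣ →* Multiplicative (ZMod (eisensteinNumerator p)),
      Function.Surjective χ₀ ∧ ∀ u : (ZMod p)ˣ, u ^ 12 = 1 → χ₀ u = 1 := by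
  set m := Nat.card (ZMod p)ˣ with hm
  have hm' : m = p - 1 := by
    rw [hm, Nat.card_eq_fintype_card, ZMod.card_units]
  have hnm : eisensteinNumerator p ∣ m := hm' ▸ eisensteinNumerator_dvd p
  have hm0 : 0 < m := by
    rw [hm']; have := (Fact.out : p.Prime).one_lt; omega
  have : NeZero m := ⟨hm0.ne'⟩
  let e : Multiplicative (ZMod m) ≃* (ZMod p)ˣ := zmodCyclicMulEquiv inferInstance
  let c : ZMod m →+* ZMod (eisensteinNumerator p) := ZMod.castHom hnm _
  let χ₀ : (ZMod p)ˣ →* Multiplicative (ZMod (eisensteinNumerator p)) :=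
    (AddMonoidHom.toMultiplicative c.toAddMonoidHom).comp e.symm.toMonoidHom
  refine ⟨χ₀, ?_, ?_⟩
  · intro y
    obtain ⟨k, hk⟩ := ZMod.castHom_surjective hnm (Multiplicative.toAdd y)
    refine ⟨e (Multiplicative.ofAdd k), ?_⟩
    show Multiplicative.ofAdd (c (Multiplicative.toAdd (e.symm (e (Multiplicative.ofAdd k))))) = y
    rw [MulEquiv.symm_apply_apply, toAdd_ofAdd]
    exact congrArg Multiplicative.ofAdd hk
  · intro u hu
    set k : ZMod m := Multiplicative.toAdd (e.symm u) with hk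
    have h12 : (12 : ℕ) • k = 0 := by
      have : (e.symm u) ^ 12 = 1 := by rw [← map_pow, hu, map_one]
      have h := congrArg Multiplicative.toAdd this
      rwa [toAdd_pow, toAdd_one] at h
    have hdvd : m ∣ 12 * k.val := by
      rw [← ZMod.natCast_eq_zero_iff]
      push_cast
      rw [ZMod.natCast_zmod_val]
      simpa using h12
    -- arithmetic
    have hn : eisensteinNumerator p = m / Nat.gcd m 12 := by
      rw [hm']; rfl
    have hg0 : 0 < Nat.gcd m 12 := Nat.gcd_pos_of_pos_left _ hm0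
    have hmn : m = eisensteinNumerator p * Nat.gcd m 12 := by
      rw [hn, Nat.div_mul_cancel (Nat.gcd_dvd_left _ _)]
    have h12' : 12 = Nat.gcd m 12 * (12 / Nat.gcd m 12) :=
      (Nat.mul_div_cancel' (Nat.gcd_dvd_right _ _)).symm
    have hcop : Nat.Coprime (eisensteinNumerator p) (12 / Nat.gcd m 12) := by
      rw [hn]; exact Nat.coprime_div_gcd_div_gcd hg0
    have h1 : eisensteinNumerator p * Nat.gcd m 12
        ∣ Nat.gcd m 12 * ((12 / Nat.gcd m 12) * k.val) := by
      rw [← mul_assoc, ← h12', ← hmn]; exact hdvd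
    rw [mul_comm] at h1
    have h2 : eisensteinNumerator p ∣ (12 / Nat.gcd m 12) * k.val :=
      Nat.dvd_of_mul_dvd_mul_left hg0 h1
    have h3 : eisensteinNumerator p ∣ k.val := hcop.dvd_of_dvd_mul_left h2
    show Multiplicative.ofAdd (c k) = 1
    have : c k = 0 := by
      show ZMod.castHom hnm _ k = 0
      rw [ZMod.castHom_apply, ← ZMod.natCast_val, ZMod.natCast_eq_zero_iff]
      exact h3
    rw [this]; rfl

/-- (DSURJ) the lower right entry `Γ₀(p) → (ℤ/p)ˣ` is onto. -/
theorem s16lbDUnit_surjective (p : ℕ) [Fact p.Prime] :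
    Function.Surjective (s16lbDUnit p) := by
  intro u
  have hcop : Nat.Coprime (u : ZMod p).val p := ZMod.val_coe_unit_coprime u
  have hcop' : IsCoprime (((u : ZMod p).val : ℤ)) (p : ℤ) := Nat.isCoprime_iff_coprime.mpr hcop
  obtain ⟨x, y, hxy⟩ := hcop'
  let g : SL(2, ℤ) := ⟨!![x, -y; (p : ℤ), ((u : ZMod p).val : ℤ)], by
    rw [Matrix.det_fin_two_of]; linarith⟩
  have hg : g ∈ Gamma0 p := by
    rw [Gamma0_mem]
    show (((p : ℤ)) : ZMod p) = 0
    simp
  refine ⟨⟨g, hg⟩, ?_⟩
  apply Units.ext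
  rw [s16lbDUnit_coe]
  show ((((u : ZMod p).val : ℤ)) : ZMod p) = u
  simp

end Fermat.Agent.S16LB
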