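import Fermat.Agent.S16.LB.PingPong

/-!
# S16 lower bound, piece 2: cocycles on `SL(2, ℤ)` from data on the generators `S`, `U`.

A (right) cocycle of `G` acting on `X` with values in `A` is `d : G → X → A` with
`d (g * h) x = d h x + d g (h • x)` (it is `x ↦ c(g)(g • x)` for a crossed homomorphism `c` with
values in `X → A`). Using `SL(2, ℤ) / ±1 = C₂ * C₃` we show that a cocycle is *freely* given by
`d S`, `d U` subject to the two obvious relations.
-/

set_option autoImplicit false

namespace Fermat.Agent.S16LB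

open scoped MatrixGroups
open ModularGroup Monoid

/-- The skew product group `(X → A) ⋊ Perm X`: pairs `(σ, d)` acting on `X × A` by
`(x, a) ↦ (σ x, a + d x)`. -/
@[ext]
structure S16LBSkew (X A : Type*) where
  perm : Equiv.Perm X
  fn : X → A

namespace S16LBSkew

variable {X A : Type*} [AddCommGroup A]

instance : Mul (S16LBSkew X A) := ⟨fun p q => ⟨p.perm * q.perm, fun x => q.fn x + p.fn (q.perm x)⟩⟩
instance : One (S16LBSkew X A) := ⟨⟨1, fun _ => 0⟩⟩
instance : Inv (S16LBSkew X A) := ⟨fun p => ⟨p.perm⁻¹, fun x => - p.fn (p.perm⁻¹ x)⟩⟩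

@[simp] theorem mul_perm (p q : S16LBSkew X A) : (p * q).perm = p.perm * q.perm := rfl
@[simp] theorem mul_fn (p q : S16LBSkew X A) (x : X) :
    (p * q).fn x = q.fn x + p.fn (q.perm x) := rfl
@[simp] theorem one_perm : (1 : S16LBSkew X A).perm = 1 := rfl
@[simp] theorem one_fn (x : X) : (1 : S16LBSkew X A).fn x = 0 := rfl
@[simp] theorem inv_perm (p : S16LBSkew X A) : p⁻¹.perm = p.perm⁻¹ := rfl
@[simp] theorem inv_fn (p : S16LBSkew X A) (x : X) : p⁻¹.fn x = - p.fn (p.perm⁻¹ x) := rfl

instance : Group (S16LBSkew X A) where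
  mul_assoc p q r := by
    ext x
    · simp [mul_assoc]
    · simp [add_assoc]
  one_mul p := by ext x <;> simp
  mul_one p := by ext x <;> simp
  inv_mul_cancel p := by
    ext x
    · simp
    · simp

/-- projection to `Perm X` -/
def permHom : S16LBSkew X A →* Equiv.Perm X where
  toFun p := p.perm
  map_one' := rfl
  map_mul' _ _ := rfl

end S16LBSkew


theorem s16lb_closure_S_U : Subgroup.closure ({S, s16lbU} : Set SL(2, ℤ)) = ⊤ := by
  rw [eq_top_iff, ← SpecialLinearGroup.SL2Z_generators, Subgroup.closure_le]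
  rintro g (rfl | rfl)
  · exact Subgroup.subset_closure (by simp)
  · have hS : S ∈ Subgroup.closure ({S, s16lbU} : Set SL(2, ℤ)) :=
      Subgroup.subset_closure (by simp)
    have hU : s16lbU ∈ Subgroup.closure ({S, s16lbU} : Set SL(2, ℤ)) :=
      Subgroup.subset_closure (by simp)
    have := Subgroup.mul_mem _ (Subgroup.inv_mem _ hS) hU
    unfold s16lbU at this
    rwa [inv_mul_cancel_left] at this

section Extension

variable {X A : Type*} [MulAction SL(2, ℤ) X] [AddCommGroup A]

/-- **Extension lemma.** A cocycle on `SL(2, ℤ)` (acting on `X` through `PSL`) is freely given by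
its values on `S` and `U = S T`, subject to the relations coming from `S² = U³ = -1`. -/
theorem s16lb_exists_cocycle (hneg : ∀ x : X, (-1 : SL(2, ℤ)) • x = x) (dS dU : X → A)
    (hS : ∀ x, dS x + dS (S • x) = 0)
    (hU : ∀ x, dU x + dU (s16lbU • x) + dU (s16lbU • s16lbU • x) = 0) :
    ∃ d : SL(2, ℤ) → X → A,
      (∀ g h x, d (g * h) x = d h x + d g (h • x)) ∧ d S = dS ∧ d s16lbU = dU := by
  classical
  -- the two generators of the skew product
  let gS : S16LBSkew X A := ⟨MulAction.toPerm S, dS⟩
  let gU : S16LBSkew X A := ⟨MulAction.toPerm s16lbU, dU⟩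
  have hgS : gS ^ 2 = 1 := by
    rw [pow_two]
    ext x
    · show S • S • x = x
      rw [← mul_smul, s16lb_S_mul_S, hneg]
    · show dS x + dS (S • x) = 0
      exact hS x
  have hgU : gU ^ 3 = 1 := by
    rw [pow_succ, pow_two]
    ext x
    · show s16lbU • s16lbU • s16lbU • x = x
      rw [← mul_smul, ← mul_smul, s16lb_U_cube, hneg]
    · show dU x + (dU (s16lbU • x) + dU (s16lbU • s16lbU • x)) = 0
      rw [← add_assoc]; exact hU x
  let gen : Bool → S16LBSkew X A := fun b => if b then gU else gS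
  have hgen : ∀ b : Bool, gen b ^ (if b then 3 else 2) = 1 := by
    intro b; cases b
    · simpa [gen] using hgS
    · simpa [gen] using hgU
  let Lf : s16lbW →* S16LBSkew X A :=
    CoprodI.lift (fun b => s16lbCycHom _ (gen b) (hgen b))
  let Ψ : SL(2, ℤ) →* S16LBSkew X A := Lf.comp s16lbTheta
  have hΨS : Ψ S = gS := by
    show Lf (s16lbTheta S) = gS
    rw [s16lbTheta_S]
    show CoprodI.lift _ (CoprodI.of _) = gS
    rw [CoprodI.lift_of]
    exact s16lbCycHom_one 2 (gen false) (hgen false)
  have hΨU : Ψ s16lbU = gU := by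
    show Lf (s16lbTheta s16lbU) = gU
    rw [s16lbTheta_U]
    show CoprodI.lift _ (CoprodI.of _) = gU
    rw [CoprodI.lift_of]
    exact s16lbCycHom_one 3 (gen true) (hgen true)
  have hperm : S16LBSkew.permHom.comp Ψ = MulAction.toPermHom SL(2, ℤ) X := by
    apply MonoidHom.eq_of_eqOn_dense s16lb_closure_S_U
    rintro g (rfl | rfl)
    · show (Ψ S).perm = MulAction.toPerm S
      rw [hΨS]
    · show (Ψ s16lbU).perm = MulAction.toPerm s16lbU
      rw [hΨU]
  have hperm' : ∀ (g : SL(2, ℤ)) (x : X), (Ψ g).perm x = g • x := by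
    intro g x
    have := DFunLike.congr_fun hperm g
    exact DFunLike.congr_fun this x
  refine ⟨fun g x => (Ψ g).fn x, ?_, ?_, ?_⟩
  · intro g h x
    show (Ψ (g * h)).fn x = _
    rw [map_mul, S16LBSkew.mul_fn, hperm']
  · funext x
    show (Ψ S).fn x = dS x
    rw [hΨS]
  · funext x
    show (Ψ s16lbU).fn x = dU x
    rw [hΨU]

end Extension

end Fermat.Agent.S16LB
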