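import Fermat.Agent.S16.LB.HeckeDec

/-!
# S16 lower bound, piece 9: the characters `γ ↦ χ₀ (d mod N)` are Hecke eigenvectors with the
Eisenstein eigenvalues.
-/

set_option autoImplicit false

namespace Fermat.Agent.S16LB

open P2MW.S_ModularForm_heckeT_slash_eq_self_of_mem_Gamma0.ModularForm.HeckeSlashInvariance
open ModularForm CongruenceSubgroup Matrix.SpecialLinearGroup
open scoped MatrixGroups

variable (N : ℕ) (ℓ : ℕ) [Fact ℓ.Prime]

theorem s16lb_repD_coprime (hℓN : ¬ ℓ ∣ N) (x : OnePoint (ZMod ℓ)) :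
    Nat.Coprime (s16lbRepD ℓ x) N := by
  induction x using OnePoint.rec with
  | infty => simp [s16lbRepD]
  | coe j =>
    show Nat.Coprime ℓ N
    exact (Nat.Prime.coprime_iff_not_dvd Fact.out).mpr hℓN

/-- `a d = 1` in `ZMod N` for elements of `Γ₀(N)`. -/
theorem s16lb_Gamma0_ad (γ : Gamma0 N) :
    (((γ : SL(2, ℤ)) 0 0 : ℤ) : ZMod N) * (((γ : SL(2, ℤ)) 1 1 : ℤ) : ZMod N) = 1 := by
  have hc : (((γ : SL(2, ℤ)) 1 0 : ℤ) : ZMod N) = 0 := Gamma0_mem.mp γ.2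
  have hdet := (γ : SL(2, ℤ)).det_coe
  rw [Matrix.det_fin_two] at hdet
  have := congrArg (Int.cast : ℤ → ZMod N) hdet
  push_cast at this
  rw [hc, mul_zero, sub_zero] at this
  exact this

variable {A : Type*} [AddCommGroup A] (χ₀ : (ZMod N)ˣ →* Multiplicative A)

/-- `T_ℓ χ = (1 + ℓ) χ`. -/
theorem s16lb_eigen_T (hℓN : ¬ ℓ ∣ N) :
    (s16lbDesc (s16lbChiOf χ₀)).comp (s16lbDataT N ℓ hℓN).trEnd
      = ((1 + ℓ : ℕ) : ℤ) • s16lbDesc (s16lbChiOf χ₀) := by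
  have : NeZero ℓ := ⟨(Fact.out : ℓ.Prime).ne_zero⟩
  refine s16lbAb_ext fun γ => ?_
  obtain ⟨γ, rfl⟩ := Additive.ofMul.surjective γ
  have hcls : s16lbCls N (Additive.ofMul γ) = Additive.ofMul (Abelianization.of γ) := rfl
  rw [AddMonoidHom.comp_apply, hcls, S16lbHeckeData.trEnd_of, map_sum]
  simp only [← hcls, AddMonoidHom.smul_apply]
  have hcls' : ∀ δ : Gamma0 N, Additive.ofMul (Abelianization.of δ) = s16lbCls N (Additive.ofMul δ) :=
    fun _ => rfl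
  simp only [hcls', s16lbDesc_cls]
  let ν : OnePoint (ZMod ℓ) → A := fun x =>
    Multiplicative.toAdd (χ₀ (ZMod.unitOfCoprime _ (s16lb_repD_coprime N ℓ hℓN x)))
  have key := (s16lbDataT N ℓ hℓN).eigen (s16lbChiOf χ₀) ν ?_ γ
  · rw [key]
    have hcard : Fintype.card (OnePoint (ZMod ℓ)) = 1 + ℓ := by
      show Fintype.card (Option (ZMod ℓ)) = _
      rw [Fintype.card_option, ZMod.card, add_comm]
    rw [hcard, natCast_zsmul]
  · intro γ i j γ' h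
    have h' : heckeRep ℓ i * mapGL ℝ (γ : SL(2, ℤ)) = mapGL ℝ (γ' : SL(2, ℤ)) * heckeRep ℓ j := h
    obtain ⟨h11, -, -⟩ := s16lb_heckeRep_entries (ℓ := ℓ) h'
    have hc' : (((γ' : SL(2, ℤ)) 1 0 : ℤ) : ZMod N) = 0 := Gamma0_mem.mp γ'.2
    have h11' := congrArg (Int.cast : ℤ → ZMod N) h11
    push_cast at h11'
    rw [hc', zero_mul, zero_add] at h11'
    have hu : ZMod.unitOfCoprime _ (s16lb_repD_coprime N ℓ hℓN i) * s16lbDUnit N γ
        = s16lbDUnit N γ' * ZMod.unitOfCoprime _ (s16lb_repD_coprime N ℓ hℓN j) := by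
      apply Units.ext
      rw [Units.val_mul, Units.val_mul, ZMod.coe_unitOfCoprime, ZMod.coe_unitOfCoprime,
        s16lbDUnit_coe, s16lbDUnit_coe]
      exact h11'
    have hu' : s16lbDUnit N γ' = ZMod.unitOfCoprime _ (s16lb_repD_coprime N ℓ hℓN i) *
        s16lbDUnit N γ * (ZMod.unitOfCoprime _ (s16lb_repD_coprime N ℓ hℓN j))⁻¹ := by
      rw [hu, mul_inv_cancel_right]
    rw [s16lbChiOf_apply, s16lbChiOf_apply, hu', MonoidHom.map_mul, MonoidHom.map_mul,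
      MonoidHom.map_inv, toAdd_mul, toAdd_mul, toAdd_inv]
    simp only [ν]
    abel

/-- `U_ℓ χ = ℓ χ` for `ℓ ∣ N`. -/
theorem s16lb_eigen_U (hℓN : ℓ ∣ N) :
    (s16lbDesc (s16lbChiOf χ₀)).comp (s16lbDataU N ℓ hℓN).trEnd
      = ((ℓ : ℕ) : ℤ) • s16lbDesc (s16lbChiOf χ₀) := by
  have : NeZero ℓ := ⟨(Fact.out : ℓ.Prime).ne_zero⟩
  refine s16lbAb_ext fun γ => ?_
  obtain ⟨γ, rfl⟩ := Additive.ofMul.surjective γ
  have hcls : s16lbCls N (Additive.ofMul γ) = Additive.ofMul (Abelianization.of γ) := rfl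
  rw [AddMonoidHom.comp_apply, hcls, S16lbHeckeData.trEnd_of, map_sum]
  simp only [← hcls, AddMonoidHom.smul_apply]
  have hcls' : ∀ δ : Gamma0 N, Additive.ofMul (Abelianization.of δ) = s16lbCls N (Additive.ofMul δ) :=
    fun _ => rfl
  simp only [hcls', s16lbDesc_cls]
  have key := (s16lbDataU N ℓ hℓN).eigen (s16lbChiOf χ₀) (fun _ => 0) ?_ γ
  · rw [key, ZMod.card, natCast_zsmul]
  · intro γ i j γ' h
    have h' : heckeRep ℓ (i : OnePoint (ZMod ℓ)) * mapGL ℝ (γ : SL(2, ℤ))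
        = mapGL ℝ (γ' : SL(2, ℤ)) * heckeRep ℓ (j : OnePoint (ZMod ℓ)) := h
    obtain ⟨-, h00, -⟩ := s16lb_heckeRep_entries (ℓ := ℓ) h'
    have hc : (((γ : SL(2, ℤ)) 1 0 : ℤ) : ZMod N) = 0 := Gamma0_mem.mp γ.2
    have h00' := congrArg (Int.cast : ℤ → ZMod N) h00
    simp only [s16lbRepA, s16lbRepB, OnePoint.elim_some] at h00'
    push_cast at h00'
    rw [hc, mul_zero, add_zero, one_mul, mul_one] at h00'
    have hu : s16lbDUnit N γ' = s16lbDUnit N γ := by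
      apply Units.ext
      rw [s16lbDUnit_coe, s16lbDUnit_coe]
      have e1 := s16lb_Gamma0_ad N γ
      have e2 := s16lb_Gamma0_ad N γ'
      rw [← h00'] at e2
      calc (((γ' : SL(2, ℤ)) 1 1 : ℤ) : ZMod N)
          = ((((γ : SL(2, ℤ)) 0 0 : ℤ) : ZMod N) * (((γ : SL(2, ℤ)) 1 1 : ℤ) : ZMod N)) *
              (((γ' : SL(2, ℤ)) 1 1 : ℤ) : ZMod N) := by rw [e1, one_mul]
        _ = ((((γ : SL(2, ℤ)) 0 0 : ℤ) : ZMod N) * (((γ' : SL(2, ℤ)) 1 1 : ℤ) : ZMod N)) *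
              (((γ : SL(2, ℤ)) 1 1 : ℤ) : ZMod N) := by ring
        _ = (((γ : SL(2, ℤ)) 1 1 : ℤ) : ZMod N) := by rw [e2, one_mul]
    rw [s16lbChiOf_apply, s16lbChiOf_apply, hu]
    simp

end Fermat.Agent.S16LB
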