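import Mathlib

/-!
# S16 lower bound, piece 3: abstract cocycle calculus (Shapiro dictionary)

`G` acts on `X`; a (right) cocycle is `d : G → X → A` with `d (g * h) x = d h x + d g (h • x)`.
* restriction to the stabiliser of a point gives a character;
* a character of the stabiliser `H` of `x₀` (transitive action) is induced to a cocycle;
* values at fixed points, powers, conjugates.
-/

set_option autoImplicit false

namespace Fermat.Agent.S16LB

variable {G : Type*} [Group G] {X : Type*} [MulAction G X] {A : Type*} [AddCommGroup A]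

/-- right cocycles `G → (X → A)`. -/
def S16lbIsCoc (d : G → X → A) : Prop := ∀ g h x, d (g * h) x = d h x + d g (h • x)

namespace S16lbIsCoc

variable {d : G → X → A} (hd : S16lbIsCoc d)
include hd

theorem one (x : X) : d 1 x = 0 := by
  have := hd 1 1 x
  rw [one_mul, one_smul] at this
  exact left_eq_add.mp this

theorem inv (g : G) (x : X) : d g⁻¹ x = - d g (g⁻¹ • x) := by
  have := hd g g⁻¹ x
  rw [mul_inv_cancel, hd.one] at this
  exact eq_neg_of_add_eq_zero_left this.symm

theorem pow_fixed {g : G} {x : X} (hx : g • x = x) (k : ℕ) : d (g ^ k) x = k • d g x := by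
  induction k with
  | zero => simp [hd.one]
  | succ k ih =>
    rw [pow_succ, hd, hx, ih, succ_nsmul, add_comm]

theorem zpow_fixed {g : G} {x : X} (hx : g • x = x) (k : ℤ) : d (g ^ k) x = k • d g x := by
  obtain ⟨k, rfl | rfl⟩ := k.eq_nat_or_neg
  · rw [zpow_natCast, natCast_zsmul, hd.pow_fixed hx]
  · have hx' : (g ^ k)⁻¹ • x = x := by
      rw [inv_smul_eq_iff]
      clear hd
      induction k with
      | zero => simp
      | succ k ih => rw [pow_succ, mul_smul, hx, ← ih]
    rw [zpow_neg, zpow_natCast, hd.inv, hx', hd.pow_fixed hx, neg_smul, natCast_zsmul]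

theorem pow_sum (g : G) (x : X) (k : ℕ) :
    d (g ^ k) x = ∑ i ∈ Finset.range k, d g (g ^ i • x) := by
  induction k with
  | zero => simp [hd.one]
  | succ k ih =>
    rw [pow_succ', hd, ih, Finset.sum_range_succ, add_comm]

/-- value on a conjugate of an element fixing `δ⁻¹ x`. -/
theorem conj_fixed (δ g : G) (x : X) (hg : g • (δ⁻¹ • x) = δ⁻¹ • x) :
    d (δ * g * δ⁻¹) x = d g (δ⁻¹ • x) := by
  rw [hd, hd, hg, hd.inv]
  abel

/-- two cocycles agreeing on a generating set agree. -/
theorem ext_of_closure {d' : G → X → A} (hd' : S16lbIsCoc d') {s : Set G}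
    (hs : Subgroup.closure s = ⊤) (h : ∀ g ∈ s, d g = d' g) : d = d' := by
  funext g
  have hg : g ∈ Subgroup.closure s := hs ▸ Subgroup.mem_top g
  induction hg using Subgroup.closure_induction with
  | mem g hg => exact h g hg
  | one => funext x; rw [hd.one, hd'.one]
  | mul g₁ g₂ _ _ h₁ h₂ => funext x; rw [hd, hd', h₁, h₂]
  | inv g _ h₁ => funext x; rw [hd.inv, hd'.inv, h₁]

/-- post-composition with a homomorphism of coefficients. -/
theorem map {B : Type*} [AddCommGroup B] (u : A →+ B) : S16lbIsCoc fun g x => u (d g x) :=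
  fun g h x => by simp only [hd g h x, map_add]

theorem add {d' : G → X → A} (hd' : S16lbIsCoc d') : S16lbIsCoc fun g x => d g x + d' g x :=
  fun g h x => by simp only [hd g h x, hd' g h x]; abel

theorem zsmul (c : ℤ) : S16lbIsCoc fun g x => c • d g x :=
  fun g h x => by simp only [hd g h x, smul_add]

/-- the character of a subgroup fixing `x₀` obtained by evaluating at `x₀`. -/
def toHom (H : Subgroup G) (x₀ : X) (hH : ∀ g ∈ H, g • x₀ = x₀) : Additive H →+ A where
  toFun γ := d (Additive.toMul γ : H) x₀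
  map_zero' := hd.one x₀
  map_add' γ δ := by
    show d ((Additive.toMul γ : H) * (Additive.toMul δ : H) : G) x₀ = _
    rw [hd, hH _ (Additive.toMul δ).2, add_comm]

@[simp] theorem toHom_apply (H : Subgroup G) (x₀ : X) (hH : ∀ g ∈ H, g • x₀ = x₀) (γ : H) :
    hd.toHom H x₀ hH (Additive.ofMul γ) = d γ x₀ := rfl

end S16lbIsCoc

section Induce

variable (H : Subgroup G) (x₀ : X) (hH : ∀ g : G, g ∈ H ↔ g • x₀ = x₀)
  (s : X → G) (hs : ∀ x, s x • x₀ = x)

include hH hs in
theorem s16lb_ind_mem (g : G) (x : X) : (s (g • x))⁻¹ * g * s x ∈ H := by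
  rw [hH, mul_smul, mul_smul, hs, inv_smul_eq_iff, hs]

/-- the induced (Shapiro) cocycle of a character of the stabiliser. -/
def s16lbInd (χ : Additive H →+ A) (g : G) (x : X) : A :=
  χ (Additive.ofMul ⟨(s (g • x))⁻¹ * g * s x, s16lb_ind_mem H x₀ hH s hs g x⟩)

theorem s16lbInd_isCoc (χ : Additive H →+ A) : S16lbIsCoc (s16lbInd H x₀ hH s hs χ) := by
  intro g h x
  unfold s16lbInd
  rw [add_comm, ← map_add, ← ofMul_mul]
  congr 2
  apply Subtype.ext
  show (s ((g * h) • x))⁻¹ * (g * h) * s x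
    = ((s (g • h • x))⁻¹ * g * s (h • x)) * ((s (h • x))⁻¹ * h * s x)
  rw [mul_smul]
  group

/-- on the stabiliser, at the base point, the induced cocycle is the character. -/
theorem s16lbInd_base (χ : Additive H →+ A) (γ : H) :
    s16lbInd H x₀ hH s hs χ γ x₀ = χ (Additive.ofMul γ) := by
  unfold s16lbInd
  have hγ : (γ : G) • x₀ = x₀ := (hH _).mp γ.2
  have hmem : s x₀ ∈ H := (hH _).mpr (hs x₀)
  have e : (⟨(s ((γ : G) • x₀))⁻¹ * γ * s x₀, s16lb_ind_mem H x₀ hH s hs γ x₀⟩ : H)
      = (⟨s x₀, hmem⟩ : H)⁻¹ * γ * ⟨s x₀, hmem⟩ := by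
    apply Subtype.ext
    show (s ((γ : G) • x₀))⁻¹ * γ * s x₀ = (s x₀)⁻¹ * γ * s x₀
    rw [hγ]
  rw [e, ofMul_mul, ofMul_mul, map_add, map_add, ofMul_inv, map_neg]
  abel

/-- at a fixed point, the induced cocycle is the character at a conjugate. -/
theorem s16lbInd_fixed (χ : Additive H →+ A) (g : G) (x : X) (hx : g • x = x) :
    ∃ η : H, (η : G) = (s x)⁻¹ * g * s x ∧
      s16lbInd H x₀ hH s hs χ g x = χ (Additive.ofMul η) := by
  refine ⟨⟨(s (g • x))⁻¹ * g * s x, s16lb_ind_mem H x₀ hH s hs g x⟩, ?_, rfl⟩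
  show (s (g • x))⁻¹ * g * s x = _
  rw [hx]

end Induce

end Fermat.Agent.S16LB
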