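import Fermat.Agent.S16.LB.Extend
import Fermat.Agent.S16.LB.Shapiro
import Fermat.Agent.S21.Parabolic

/-!
# S16 lower bound, piece 5: integral cocycles on a finite `PSL(2, ℤ)`-set and parabolic elements
-/

set_option autoImplicit false

namespace Fermat.Agent.S16LB

open scoped MatrixGroups
open ModularGroup

section General

variable {X : Type*} [MulAction SL(2, ℤ) X] (hneg : ∀ x : X, (-1 : SL(2, ℤ)) • x = x)
  {D : SL(2, ℤ) → X → ℤ} (hD : S16lbIsCoc D)

include hneg hD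

theorem s16lb_coc_neg_one (x : X) : D (-1) x = 0 := by
  have h := hD (-1) (-1) x
  rw [neg_mul_neg, one_mul, hD.one, hneg] at h
  omega

theorem s16lb_coc_neg_mul (g : SL(2, ℤ)) (x : X) : D (-g) x = D g x := by
  have h := hD (-1) g x
  rw [neg_one_mul] at h
  rw [h, s16lb_coc_neg_one hneg hD, add_zero]

theorem s16lb_coc_S_add (x : X) : D S x + D S (S • x) = 0 := by
  have h := hD S S x
  rw [s16lb_S_mul_S, s16lb_coc_neg_one hneg hD] at h
  exact h.symm

theorem s16lb_coc_U_add (x : X) :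
    D s16lbU x + D s16lbU (s16lbU • x) + D s16lbU (s16lbU • s16lbU • x) = 0 := by
  have h := hD (s16lbU * s16lbU) s16lbU x
  rw [s16lb_U_cube, s16lb_coc_neg_one hneg hD, hD] at h
  rw [h]; ring

theorem s16lb_coc_sum_S [Fintype X] : ∑ x, D S x = 0 := by
  have h1 : ∑ x, D S (S • x) = ∑ x, D S x :=
    Equiv.sum_comp (MulAction.toPerm S) (fun x => D S x)
  have h2 : ∑ x, (D S x + D S (S • x)) = 0 :=
    Finset.sum_eq_zero fun x _ => s16lb_coc_S_add hneg hD x
  rw [Finset.sum_add_distrib, h1] at h2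
  omega

theorem s16lb_coc_sum_U [Fintype X] : ∑ x, D s16lbU x = 0 := by
  have h1 : ∑ x, D s16lbU (s16lbU • x) = ∑ x, D s16lbU x :=
    Equiv.sum_comp (MulAction.toPerm s16lbU) (fun x => D s16lbU x)
  have h1' : ∑ x, D s16lbU (s16lbU • s16lbU • x) = ∑ x, D s16lbU x := by
    rw [← h1]
    exact Equiv.sum_comp (MulAction.toPerm s16lbU) (fun x => D s16lbU (s16lbU • x))
  have h2 : ∑ x, (D s16lbU x + D s16lbU (s16lbU • x) + D s16lbU (s16lbU • s16lbU • x)) = 0 :=
    Finset.sum_eq_zero fun x _ => s16lb_coc_U_add hneg hD x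
  rw [Finset.sum_add_distrib, Finset.sum_add_distrib, h1, h1'] at h2
  omega

/-- the total residue of an integral cocycle vanishes. -/
theorem s16lb_coc_sum_T [Fintype X] : ∑ x, D T x = 0 := by
  have h : ∀ x, D T x = D s16lbU x - D S (T • x) := by
    intro x
    have := hD S T x
    show D T x = D (S * T) x - D S (T • x)
    rw [this]; ring
  have h1 : ∑ x, D S (T • x) = ∑ x, D S x :=
    Equiv.sum_comp (MulAction.toPerm T) (fun x => D S x)
  simp only [h, Finset.sum_sub_distrib]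
  rw [h1, s16lb_coc_sum_S hneg hD, s16lb_coc_sum_U hneg hD, sub_zero]

end General

section Crit

variable {X : Type*} [MulAction SL(2, ℤ) X] [Fintype X]
  (hneg : ∀ x : X, (-1 : SL(2, ℤ)) • x = x)
  {D : SL(2, ℤ) → X → ℤ} (hD : S16lbIsCoc D)
  (x₀ : X) (p : ℕ)
  (hT0 : T • x₀ = x₀)
  (hTp : ∀ y : X, T ^ p • y = y)
  (horb : ∀ y : X, y ≠ x₀ → ∀ m : ℤ, T ^ m • y = y → (p : ℤ) ∣ m)
  (hsum : ∀ (f : X → ℤ) (y : X), y ≠ x₀ →
    ∑ i ∈ Finset.range p, f (T ^ i • y) = ∑ x, f x - f x₀)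

include hneg hD hT0 hTp horb hsum

/-- **Parabolic criterion.** If the residue at the cusp `x₀` vanishes, the character
`γ ↦ D γ x₀` of the stabiliser of `x₀` kills all parabolic elements. -/
theorem s16lb_parabolic_crit (h0 : D T x₀ = 0) (γ : SL(2, ℤ)) (hγ : γ • x₀ = x₀)
    (htr : (γ : Matrix (Fin 2) (Fin 2) ℤ).trace ^ 2 = 4) : D γ x₀ = 0 := by
  -- values of `D (T ^ m)` at fixed points
  have key : ∀ (m : ℤ) (y : X), T ^ m • y = y → D (T ^ m) y = 0 := by
    intro m y hy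
    by_cases hy0 : y = x₀
    · subst hy0
      rw [hD.zpow_fixed hT0, h0, smul_zero]
    · obtain ⟨k, rfl⟩ := horb y hy0 m hy
      rw [zpow_mul, zpow_natCast, hD.zpow_fixed (hTp y), hD.pow_sum, hsum _ y hy0,
        s16lb_coc_sum_T hneg hD, h0]
      simp
  obtain ⟨δ, m, h | h⟩ := Fermat.Agent.S21.exists_conj_T_zpow_of_trace_sq_eq_four γ htr
  · have hy : T ^ m • (δ⁻¹ • x₀) = δ⁻¹ • x₀ := by
      rw [eq_inv_smul_iff, ← mul_smul, ← mul_smul, ← h, hγ]
    rw [h, hD.conj_fixed δ (T ^ m) x₀ hy, key m _ hy]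
  · have hγ' : (δ * T ^ m * δ⁻¹) • x₀ = x₀ := by
      have : γ = (-1) * (δ * T ^ m * δ⁻¹) := by rw [h, neg_one_mul]
      rw [this, mul_smul, hneg] at hγ
      exact hγ
    have hy : T ^ m • (δ⁻¹ • x₀) = δ⁻¹ • x₀ := by
      rw [eq_inv_smul_iff, ← mul_smul, ← mul_smul, hγ']
    rw [h, s16lb_coc_neg_mul hneg hD, hD.conj_fixed δ (T ^ m) x₀ hy, key m _ hy]

end Crit

end Fermat.Agent.S16LB
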