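import Mathlib

/-!
# S16 lower bound, piece 1: `PSL(2, ℤ) = C₂ * C₃` via ping-pong on the upper half plane.

We show that the homomorphism `C₂ * C₃ → Perm ℍ` sending the generators to the Möbius actions of
`S` and `U = S * T` is injective, and that its range contains the image of `SL(2, ℤ)`.
This yields a homomorphism `s16lbTheta : SL(2, ℤ) →* C₂ * C₃` with `S ↦ a`, `U ↦ b`.
-/

set_option autoImplicit false

namespace Fermat.Agent.S16LB

open scoped MatrixGroups Pointwise
open ModularGroup UpperHalfPlane Monoid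

/-- `U = S * T`, of order `6` in `SL(2, ℤ)` (order `3` in `PSL(2, ℤ)`). -/
def s16lbU : SL(2, ℤ) := S * T

/-- The homomorphism out of a cyclic group `C_n` given by an element `g` with `g ^ n = 1`. -/
noncomputable def s16lbCycHom {G : Type*} [Group G] (n : ℕ) (g : G) (hg : g ^ n = 1) :
    Multiplicative (ZMod n) →* G :=
  AddMonoidHom.toMultiplicativeLeft
    (ZMod.lift n ⟨zmultiplesHom (Additive G) (Additive.ofMul g), by
      simp only [zmultiplesHom_apply, natCast_zsmul]
      rw [← ofMul_pow, hg, ofMul_one]⟩)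

theorem s16lbCycHom_apply {G : Type*} [Group G] (n : ℕ) (g : G) (hg : g ^ n = 1) (k : ℤ) :
    s16lbCycHom n g hg (Multiplicative.ofAdd (k : ZMod n)) = g ^ k := by
  unfold s16lbCycHom
  simp [AddMonoidHom.toMultiplicativeLeft]

theorem s16lbCycHom_one {G : Type*} [Group G] (n : ℕ) (g : G) (hg : g ^ n = 1) :
    s16lbCycHom n g hg (Multiplicative.ofAdd (1 : ZMod n)) = g := by
  have := s16lbCycHom_apply n g hg 1
  simpa using this


/-! ### Real parts under `S`, `T`, `U` -/

theorem s16lb_re_S_smul (z : ℍ) : (S • z).re = -z.re / Complex.normSq (z : ℂ) := by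
  rw [modular_S_smul]
  show ((-(z:ℂ))⁻¹).re = _
  rw [Complex.inv_re]
  simp [Complex.normSq_neg]

theorem s16lb_re_T_smul (z : ℍ) : (T • z).re = z.re + 1 := by
  rw [modular_T_smul]
  simp [add_comm]

theorem s16lb_re_T_inv_smul (z : ℍ) : (T⁻¹ • z).re = z.re - 1 := by
  have := modular_T_zpow_smul z (-1)
  rw [zpow_neg_one] at this
  rw [this]
  simp [add_comm, sub_eq_add_neg]

theorem s16lb_normSq_pos (z : ℍ) : 0 < Complex.normSq (z : ℂ) :=
  Complex.normSq_pos.mpr z.ne_zero

/-- `S` maps the left half plane into the right half plane. -/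
theorem s16lb_S_pp {z : ℍ} (hz : z.re < 0) : 0 < (S • z).re := by
  rw [s16lb_re_S_smul]
  exact div_pos (by linarith) (s16lb_normSq_pos z)

theorem s16lb_S_pp' {z : ℍ} (hz : 0 < z.re) : (S • z).re < 0 := by
  rw [s16lb_re_S_smul]
  exact div_neg_of_neg_of_pos (by linarith) (s16lb_normSq_pos z)

/-- `U = S T` maps the right half plane into the left half plane. -/
theorem s16lb_U_pp {z : ℍ} (hz : 0 < z.re) : (s16lbU • z).re < 0 := by
  unfold s16lbU
  rw [mul_smul]
  apply s16lb_S_pp'
  rw [s16lb_re_T_smul]; linarith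

theorem s16lb_neg_one_smul (z : ℍ) : (-1 : SL(2, ℤ)) • z = z := by
  have := SL_neg_smul (1 : SL(2, ℤ)) z
  simp at this ⊢

theorem s16lb_S_mul_S : S * S = -1 := by
  ext i j
  fin_cases i <;> fin_cases j <;> simp [ModularGroup.S]

theorem s16lb_S_inv : S⁻¹ = -S := by
  rw [inv_eq_iff_mul_eq_one, mul_neg, s16lb_S_mul_S, neg_neg]

theorem s16lb_S_inv_smul (z : ℍ) : S⁻¹ • z = S • z := by
  rw [s16lb_S_inv, SL_neg_smul]

/-- `U⁻¹ = T⁻¹ S⁻¹` maps the right half plane into the left half plane. -/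
theorem s16lb_U_inv_pp {z : ℍ} (hz : 0 < z.re) : (s16lbU⁻¹ • z).re < 0 := by
  unfold s16lbU
  rw [mul_inv_rev, mul_smul, s16lb_re_T_inv_smul, s16lb_S_inv_smul]
  have := s16lb_S_pp' hz
  linarith

theorem s16lb_U_cube : s16lbU * s16lbU * s16lbU = -1 := by
  unfold s16lbU
  ext i j
  fin_cases i <;> fin_cases j <;> simp [ModularGroup.S, ModularGroup.T, Matrix.mul_apply, Fin.sum_univ_two]


/-! ### The ping-pong -/

/-- The two cyclic factors, indexed by `Bool`: `false ↦ C₂`, `true ↦ C₃`. -/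
abbrev s16lbH (b : Bool) : Type := Multiplicative (ZMod (if b then 3 else 2))

/-- The action of `SL(2, ℤ)` on `ℍ` as a homomorphism to `Perm ℍ`. -/
noncomputable def s16lbRho : SL(2, ℤ) →* Equiv.Perm ℍ := MulAction.toPermHom SL(2, ℤ) ℍ

theorem s16lbRho_apply (g : SL(2, ℤ)) (z : ℍ) : s16lbRho g z = g • z := rfl

theorem s16lbRho_neg_one : s16lbRho (-1) = 1 := by
  ext z
  simp [s16lbRho_apply]

theorem s16lbRho_S_sq : s16lbRho S ^ 2 = 1 := by
  rw [← map_pow, pow_two, s16lb_S_mul_S, s16lbRho_neg_one]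

theorem s16lbRho_U_cube : s16lbRho s16lbU ^ 3 = 1 := by
  rw [← map_pow, pow_succ, pow_two, s16lb_U_cube, s16lbRho_neg_one]

/-- the generator images -/
noncomputable def s16lbGen (b : Bool) : Equiv.Perm ℍ := s16lbRho (if b then s16lbU else S)

theorem s16lbGen_pow (b : Bool) : s16lbGen b ^ (if b then 3 else 2) = 1 := by
  cases b
  · simpa [s16lbGen] using s16lbRho_S_sq
  · simpa [s16lbGen] using s16lbRho_U_cube

noncomputable def s16lbF (b : Bool) : s16lbH b →* Equiv.Perm ℍ :=
  s16lbCycHom _ (s16lbGen b) (s16lbGen_pow b)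


theorem s16lb_c2_cases : ∀ h : Multiplicative (ZMod 2), h = 1 ∨ h = Multiplicative.ofAdd 1 := by
  decide

theorem s16lb_c3_cases : ∀ h : Multiplicative (ZMod 3),
    h = 1 ∨ h = Multiplicative.ofAdd 1 ∨ h = Multiplicative.ofAdd 2 := by
  decide

theorem s16lbF_false_apply {h : s16lbH false} (hh : h ≠ 1) (z : ℍ) :
    s16lbF false h z = S • z := by
  rcases s16lb_c2_cases h with rfl | rfl
  · exact absurd rfl hh
  · have := s16lbCycHom_one 2 (s16lbGen false) (s16lbGen_pow false)
    show s16lbCycHom 2 (s16lbGen false) (s16lbGen_pow false) (Multiplicative.ofAdd (1 : ZMod 2)) z = _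
    rw [this]; rfl

theorem s16lbF_true_apply {h : s16lbH true} (hh : h ≠ 1) (z : ℍ) :
    s16lbF true h z = s16lbU • z ∨ s16lbF true h z = s16lbU⁻¹ • z := by
  rcases s16lb_c3_cases h with rfl | rfl | rfl
  · exact absurd rfl hh
  · left
    have := s16lbCycHom_one 3 (s16lbGen true) (s16lbGen_pow true)
    show s16lbCycHom 3 (s16lbGen true) (s16lbGen_pow true) (Multiplicative.ofAdd (1 : ZMod 3)) z = _
    rw [this]; rfl
  · right
    have h2 := s16lbCycHom_apply 3 (s16lbGen true) (s16lbGen_pow true) (-1)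
    have e : ((-1 : ℤ) : ZMod 3) = 2 := by decide
    rw [e] at h2
    show s16lbCycHom 3 (s16lbGen true) (s16lbGen_pow true) (Multiplicative.ofAdd (2 : ZMod 3)) z = _
    rw [h2, zpow_neg_one]
    show (s16lbRho s16lbU)⁻¹ z = _
    rw [← map_inv]; rfl

/-- The ping-pong sets: right half plane for `C₂`, left half plane for `C₃`. -/
def s16lbX (b : Bool) : Set ℍ := if b then {z | z.re < 0} else {z | 0 < z.re}


/-- a point with positive real part -/
noncomputable def s16lbPtPos : ℍ := ⟨1 + Complex.I, by simp⟩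

/-- a point with negative real part -/
noncomputable def s16lbPtNeg : ℍ := ⟨-1 + Complex.I, by simp⟩

theorem s16lb_lift_injective : Function.Injective (CoprodI.lift s16lbF) := by
  apply CoprodI.lift_injective_of_ping_pong s16lbF (Or.inr ⟨true, ?_⟩) s16lbX
  · intro b
    cases b
    · refine ⟨s16lbPtPos, ?_⟩
      show (0:ℝ) < (1 + Complex.I).re
      simp
    · refine ⟨s16lbPtNeg, ?_⟩
      show (-1 + Complex.I).re < (0:ℝ)
      simp
  · intro a b hab
    rw [Function.onFun, Set.disjoint_left]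
    cases a <;> cases b <;> simp_all [s16lbX] <;> intro z hz <;> linarith
  · intro a b hab h hh
    rintro _ ⟨z, hz, rfl⟩
    cases a <;> cases b <;> simp_all [s16lbX]
    · show 0 < (s16lbF false h z).re
      rw [s16lbF_false_apply hh]
      exact s16lb_S_pp hz
    · show (s16lbF true h z).re < 0
      rcases s16lbF_true_apply hh z with e | e <;> rw [e]
      · exact s16lb_U_pp hz
      · exact s16lb_U_inv_pp hz
  · show 3 ≤ Cardinal.mk (Multiplicative (ZMod 3))
    rw [Cardinal.mk_fintype]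
    simp [ZMod.card]


/-- The free product `C₂ * C₃`. -/
abbrev s16lbW : Type := CoprodI s16lbH

/-- generator of order 2 -/
def s16lbA : s16lbW := CoprodI.of (i := false) (Multiplicative.ofAdd (1 : ZMod 2))

/-- generator of order 3 -/
def s16lbB : s16lbW := CoprodI.of (i := true) (Multiplicative.ofAdd (1 : ZMod 3))

theorem s16lb_lift_A : CoprodI.lift s16lbF s16lbA = s16lbRho S := by
  unfold s16lbA
  rw [CoprodI.lift_of]
  exact s16lbCycHom_one 2 (s16lbGen false) (s16lbGen_pow false)

theorem s16lb_lift_B : CoprodI.lift s16lbF s16lbB = s16lbRho s16lbU := by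
  unfold s16lbB
  rw [CoprodI.lift_of]
  exact s16lbCycHom_one 3 (s16lbGen true) (s16lbGen_pow true)

theorem s16lbRho_mem_range (g : SL(2, ℤ)) : s16lbRho g ∈ (CoprodI.lift s16lbF).range := by
  have hle : (⊤ : Subgroup SL(2, ℤ)) ≤ (CoprodI.lift s16lbF).range.comap s16lbRho := by
    rw [← SpecialLinearGroup.SL2Z_generators, Subgroup.closure_le]
    rintro g (rfl | rfl)
    · exact ⟨s16lbA, s16lb_lift_A⟩
    · refine ⟨s16lbA⁻¹ * s16lbB, ?_⟩
      rw [map_mul, map_inv, s16lb_lift_A, s16lb_lift_B, ← map_inv, ← map_mul]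
      congr 1
      unfold s16lbU
      group
  exact hle (Subgroup.mem_top g)

/-- The homomorphism `SL(2, ℤ) → C₂ * C₃` (with kernel `±1`). -/
noncomputable def s16lbTheta : SL(2, ℤ) →* s16lbW :=
  (MonoidHom.ofInjective s16lb_lift_injective).symm.toMonoidHom.comp
    (s16lbRho.codRestrict (CoprodI.lift s16lbF).range s16lbRho_mem_range)

theorem s16lb_lift_theta (g : SL(2, ℤ)) : CoprodI.lift s16lbF (s16lbTheta g) = s16lbRho g := by
  unfold s16lbTheta
  have := (MonoidHom.ofInjective s16lb_lift_injective).apply_symm_apply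
    (s16lbRho.codRestrict (CoprodI.lift s16lbF).range s16lbRho_mem_range g)
  exact congrArg Subtype.val this

theorem s16lbTheta_S : s16lbTheta S = s16lbA :=
  s16lb_lift_injective ((s16lb_lift_theta S).trans s16lb_lift_A.symm)

theorem s16lbTheta_U : s16lbTheta s16lbU = s16lbB :=
  s16lb_lift_injective ((s16lb_lift_theta s16lbU).trans s16lb_lift_B.symm)

theorem s16lbA_sq : s16lbA * s16lbA = 1 := by
  unfold s16lbA
  rw [← map_mul, ← ofAdd_add]
  have : (1 : ZMod 2) + 1 = 0 := by decide
  rw [this, ofAdd_zero, map_one]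

theorem s16lbB_cube : s16lbB * s16lbB * s16lbB = 1 := by
  unfold s16lbB
  rw [← map_mul, ← map_mul, ← ofAdd_add, ← ofAdd_add]
  have : (1 : ZMod 3) + 1 + 1 = 0 := by decide
  rw [this, ofAdd_zero, map_one]

end Fermat.Agent.S16LB
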