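import Mathlib

/-!
# S16 lower bound, piece 7: abstract Hecke operators on the abelianisation

`Γ → 𝔾` an injective homomorphism, `α : I → 𝔾` finitely many elements such that
`α i * γ = γ' * α j` is solvable (for given `γ`, `i`) with `γ' ∈ Γ`, and the cosets `Γ α i` are
distinct.  Then `γ ↦ ∑ i, [γ'(γ, i)]` is a homomorphism `Γ → Γ^ab`.
-/

set_option autoImplicit false

namespace Fermat.Agent.S16LB

open scoped BigOperators

/-- The data of a "Hecke correspondence" on a group `Γ` inside an ambient group `𝔾`. -/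
structure S16lbHeckeData (𝔾 Γ I : Type*) [Group 𝔾] [Group Γ] where
  ι : Γ →* 𝔾
  hι : Function.Injective ι
  α : I → 𝔾
  hex : ∀ (γ : Γ) (i : I), ∃ (j : I) (γ' : Γ), α i * ι γ = ι γ' * α j
  hun : ∀ (i j : I) (γ' : Γ), α i = ι γ' * α j → i = j

namespace S16lbHeckeData

variable {𝔾 Γ I : Type*} [Group 𝔾] [Group Γ] (H : S16lbHeckeData 𝔾 Γ I)

/-- the permutation of the index set induced by `γ` -/
noncomputable def idx (γ : Γ) (i : I) : I := (H.hex γ i).choose

/-- the cocycle `Γ × I → Γ` -/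
noncomputable def coc (γ : Γ) (i : I) : Γ := (H.hex γ i).choose_spec.choose

theorem spec (γ : Γ) (i : I) : H.α i * H.ι γ = H.ι (H.coc γ i) * H.α (H.idx γ i) :=
  (H.hex γ i).choose_spec.choose_spec

theorem unique {γ : Γ} {i j : I} {γ' : Γ} (h : H.α i * H.ι γ = H.ι γ' * H.α j) :
    j = H.idx γ i ∧ γ' = H.coc γ i := by
  have h2 := H.spec γ i
  rw [h] at h2
  have h3 : H.α j = H.ι (γ'⁻¹ * H.coc γ i) * H.α (H.idx γ i) := by
    rw [map_mul, map_inv, mul_assoc, ← h2, inv_mul_cancel_left]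
  have hj := H.hun _ _ _ h3
  refine ⟨hj, ?_⟩
  rw [hj] at h2
  exact H.hι (mul_right_cancel h2)

theorem idx_mul (γ δ : Γ) (i : I) : H.idx (γ * δ) i = H.idx δ (H.idx γ i) ∧
    H.coc (γ * δ) i = H.coc γ i * H.coc δ (H.idx γ i) := by
  have h : H.α i * H.ι (γ * δ)
      = H.ι (H.coc γ i * H.coc δ (H.idx γ i)) * H.α (H.idx δ (H.idx γ i)) := by
    rw [map_mul, map_mul, ← mul_assoc, H.spec γ i, mul_assoc, H.spec δ, mul_assoc]
  obtain ⟨h1, h2⟩ := H.unique h
  exact ⟨h1.symm, h2.symm⟩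

theorem idx_one (i : I) : H.idx 1 i = i ∧ H.coc 1 i = 1 := by
  have h : H.α i * H.ι 1 = H.ι 1 * H.α i := by simp
  obtain ⟨h1, h2⟩ := H.unique h
  exact ⟨h1.symm, h2.symm⟩

/-- the permutation of `I` attached to `γ` -/
noncomputable def perm (γ : Γ) : Equiv.Perm I where
  toFun := H.idx γ
  invFun := H.idx γ⁻¹
  left_inv i := by rw [← (H.idx_mul γ γ⁻¹ i).1, mul_inv_cancel, (H.idx_one i).1]
  right_inv i := by rw [← (H.idx_mul γ⁻¹ γ i).1, inv_mul_cancel, (H.idx_one i).1]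

@[simp] theorem perm_apply (γ : Γ) (i : I) : H.perm γ i = H.idx γ i := rfl

variable [Fintype I]

/-- The Hecke operator `Γ → Γ^ab`, `γ ↦ ∑ i, [coc γ i]`. -/
noncomputable def trHom : Additive Γ →+ Additive (Abelianization Γ) where
  toFun γ := ∑ i, Additive.ofMul (Abelianization.of (H.coc (Additive.toMul γ) i))
  map_zero' := by
    show ∑ i, Additive.ofMul (Abelianization.of (H.coc 1 i)) = 0
    simp [(H.idx_one _).2]
  map_add' γ δ := by
    show ∑ i, Additive.ofMul (Abelianization.of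
      (H.coc (Additive.toMul γ * Additive.toMul δ) i)) = _
    simp only [(H.idx_mul _ _ _).2, map_mul, ofMul_mul, Finset.sum_add_distrib]
    congr 1
    exact Equiv.sum_comp (H.perm (Additive.toMul γ))
      (fun i => Additive.ofMul (Abelianization.of (H.coc (Additive.toMul δ) i)))

/-- The Hecke operator as an endomorphism of `Γ^ab`. -/
noncomputable def trEnd : Additive (Abelianization Γ) →+ Additive (Abelianization Γ) :=
  MonoidHom.toAdditiveLeft
    (Abelianization.lift (AddMonoidHom.toMultiplicativeRight H.trHom))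

theorem trEnd_of (γ : Γ) :
    H.trEnd (Additive.ofMul (Abelianization.of γ))
      = ∑ i, Additive.ofMul (Abelianization.of (H.coc γ i)) := by
  simp [trEnd, trHom]

/-- **Periods.** If `F` has `Γ`-periods `φ`, then `∑ i, F ∘ α i` has periods `φ ∘ trHom`. -/
theorem periods {𝔛 : Type*} [MulAction 𝔾 𝔛] {B : Type*} [AddCommGroup B] (F : 𝔛 → B)
    (φ : Additive Γ →+ B) (hF : ∀ (γ : Γ) (z : 𝔛), F (H.ι γ • z) - F z = φ (Additive.ofMul γ))
    (γ : Γ) (z : 𝔛) :
    (∑ i, F (H.α i • H.ι γ • z)) - ∑ i, F (H.α i • z)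
      = ∑ i, φ (Additive.ofMul (H.coc γ i)) := by
  have h1 : ∀ i, F (H.α i • H.ι γ • z)
      = φ (Additive.ofMul (H.coc γ i)) + F (H.α (H.idx γ i) • z) := by
    intro i
    rw [← mul_smul, H.spec γ i, mul_smul, ← hF (H.coc γ i)]
    abel
  simp only [h1, Finset.sum_add_distrib]
  have h2 : ∑ i, F (H.α (H.idx γ i) • z) = ∑ i, F (H.α i • z) :=
    Equiv.sum_comp (H.perm γ) (fun i => F (H.α i • z))
  rw [h2]; abel

/-- **Eigenvalue.** -/
theorem eigen {A : Type*} [AddCommGroup A] (χ : Additive Γ →+ A) (ν : I → A)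
    (h : ∀ (γ : Γ) (i j : I) (γ' : Γ), H.α i * H.ι γ = H.ι γ' * H.α j →
      χ (Additive.ofMul γ') = χ (Additive.ofMul γ) + ν i - ν j) (γ : Γ) :
    ∑ i, χ (Additive.ofMul (H.coc γ i)) = Fintype.card I • χ (Additive.ofMul γ) := by
  have h1 : ∀ i, χ (Additive.ofMul (H.coc γ i))
      = χ (Additive.ofMul γ) + ν i - ν (H.idx γ i) := fun i => h γ i _ _ (H.spec γ i)
  simp only [h1, Finset.sum_sub_distrib, Finset.sum_add_distrib]
  have h2 : ∑ i, ν (H.idx γ i) = ∑ i, ν i := Equiv.sum_comp (H.perm γ) ν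
  rw [h2, Finset.sum_const, Finset.card_univ]
  abel

end S16lbHeckeData

end Fermat.Agent.S16LB
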